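/-
Programme MAZ (S15), brick F-INEQ, part (c) (helper42): minimal *level* group cohomology in degree 1.

`Γ` an abstract group with a level basis `𝒰` (the "open subgroups"); modules are plain
`[AddCommGroup V] [DistribMulAction Γ V]`; a 1-cocycle is a function `Γ → V` with the cocycle identity which
vanishes on some `U ∈ 𝒰` (for a cocycle this is the same as being right-`U`-invariant, i.e. "continuous").
`H1 𝒰 V = Z1 𝒰 V ⧸ B1 𝒰 V`, functoriality `H1map`, and the pieces of the long exact sequence of a short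
exact sequence `0 → V' → V → V'' → 0` that the Selmer inequality needs:

* `exists_of_H1map_eq_zero`        : exactness at `H¹(V)`;
* `delta`, `H1map_delta`, `exists_delta_eq` : the connecting map `(V'')^Γ → H¹(V')`, exactness at `H¹(V')`;
* `delta_eq_zero_iff`               : exactness at `(V'')^Γ`.

Mathlib only.
-/
import Mathlib

set_option autoImplicit false

namespace Fermat.Agent.MAZ.SelCoh42

universe u v

/-- A level basis on a group: a nonempty, downward directed family of subgroups. -/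
structure LevelSets (Γ : Type v) [Group Γ] where
  sets : Set (Subgroup Γ)
  nonempty : sets.Nonempty
  directed : ∀ U ∈ sets, ∀ W ∈ sets, ∃ X ∈ sets, X ≤ U ⊓ W

variable {Γ : Type v} [Group Γ] (𝒰 : LevelSets Γ)

section Basic

variable (V : Type u) [AddCommGroup V] [DistribMulAction Γ V]

/-- Every vector has an open stabiliser. -/
def IsSmooth : Prop := ∀ x : V, ∃ U ∈ 𝒰.sets, ∀ s ∈ U, s • x = x

/-- Level 1-cocycles. -/
def Z1 : AddSubgroup (Γ → V) where
  carrier := {c | (∀ g h : Γ, c (g * h) = c g + g • c h) ∧ ∃ U ∈ 𝒰.sets, ∀ s ∈ U, c s = 0}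
  zero_mem' := by
    refine ⟨fun g h => by simp, ?_⟩
    obtain ⟨U, hU⟩ := 𝒰.nonempty
    exact ⟨U, hU, fun _ _ => rfl⟩
  add_mem' := by
    rintro c c' ⟨hc, U, hU, hcU⟩ ⟨hc', W, hW, hcW⟩
    refine ⟨fun g h => ?_, ?_⟩
    · simp only [Pi.add_apply, hc g h, hc' g h, smul_add]; abel
    · obtain ⟨X, hX, hle⟩ := 𝒰.directed U hU W hW
      exact ⟨X, hX, fun s hs => by
        simp only [Pi.add_apply, hcU s (hle hs).1, hcW s (hle hs).2, add_zero]⟩
  neg_mem' := by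
    rintro c ⟨hc, U, hU, hcU⟩
    refine ⟨fun g h => ?_, U, hU, fun s hs => by simp only [Pi.neg_apply, hcU s hs, neg_zero]⟩
    simp only [Pi.neg_apply, hc g h, smul_neg]; abel

variable {V} in
theorem Z1.map_mul (c : Z1 𝒰 V) (g h : Γ) : c.1 (g * h) = c.1 g + g • c.1 h := c.2.1 g h

variable {V} in
theorem Z1.map_one (c : Z1 𝒰 V) : c.1 1 = 0 := by
  have h := Z1.map_mul 𝒰 c 1 1
  simp only [mul_one, one_smul] at h
  exact left_eq_add.mp h

variable {V} in
theorem Z1.exists_level (c : Z1 𝒰 V) : ∃ U ∈ 𝒰.sets, ∀ s ∈ U, c.1 s = 0 := c.2.2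

/-- 1-coboundaries (those which are level cocycles). -/
def B1 : AddSubgroup (Z1 𝒰 V) where
  carrier := {c | ∃ x : V, ∀ g : Γ, c.1 g = g • x - x}
  zero_mem' := ⟨0, fun g => by simp⟩
  add_mem' := by
    rintro c c' ⟨x, hx⟩ ⟨y, hy⟩
    exact ⟨x + y, fun g => by
      simp only [AddSubgroup.coe_add, Pi.add_apply, hx g, hy g, smul_add]; abel⟩
  neg_mem' := by
    rintro c ⟨x, hx⟩
    exact ⟨-x, fun g => by
      simp only [AddSubgroup.coe_neg, Pi.neg_apply, hx g, smul_neg]; abel⟩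

/-- Level cohomology in degree 1. -/
abbrev H1 : Type (max u v) := Z1 𝒰 V ⧸ B1 𝒰 V

variable {V}

/-- The class of a cocycle. -/
def H1mk : Z1 𝒰 V →+ H1 𝒰 V := QuotientAddGroup.mk' (B1 𝒰 V)

theorem H1mk_surjective : Function.Surjective (H1mk 𝒰 (V := V)) :=
  QuotientAddGroup.mk'_surjective _

theorem H1mk_eq_zero_iff (c : Z1 𝒰 V) : H1mk 𝒰 c = 0 ↔ ∃ x : V, ∀ g : Γ, c.1 g = g • x - x := by
  unfold H1mk
  rw [QuotientAddGroup.mk'_apply, QuotientAddGroup.eq_zero_iff]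
  rfl

/-- The coboundary of a vector with open stabiliser, as a level cocycle. -/
def cob (x : V) (hx : ∃ U ∈ 𝒰.sets, ∀ s ∈ U, s • x = x) : Z1 𝒰 V :=
  ⟨fun g => g • x - x, by
    refine ⟨fun g h => ?_, ?_⟩
    · show (g * h) • x - x = (g • x - x) + g • (h • x - x)
      simp only [mul_smul, smul_sub]; abel
    · obtain ⟨U, hU, h⟩ := hx
      exact ⟨U, hU, fun s hs => by
        show s • x - x = 0
        rw [h s hs, sub_self]⟩⟩

@[simp] theorem cob_apply (x : V) (hx : ∃ U ∈ 𝒰.sets, ∀ s ∈ U, s • x = x) (g : Γ) :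
    (cob 𝒰 x hx).1 g = g • x - x := rfl

theorem H1mk_cob (x : V) (hx : ∃ U ∈ 𝒰.sets, ∀ s ∈ U, s • x = x) : H1mk 𝒰 (cob 𝒰 x hx) = 0 :=
  (H1mk_eq_zero_iff 𝒰 _).2 ⟨x, fun _ => rfl⟩

end Basic

section Functoriality

variable {V : Type u} [AddCommGroup V] [DistribMulAction Γ V]
  {V' : Type u} [AddCommGroup V'] [DistribMulAction Γ V']
  {V'' : Type u} [AddCommGroup V''] [DistribMulAction Γ V'']

/-- Push-forward of cocycles along an equivariant map. -/
def Z1map (f : V →+[Γ] V') : Z1 𝒰 V →+ Z1 𝒰 V' where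
  toFun c := ⟨fun g => f (c.1 g), by
    refine ⟨fun g h => ?_, ?_⟩
    · show f (c.1 (g * h)) = f (c.1 g) + g • f (c.1 h)
      rw [Z1.map_mul, map_add, map_smul]
    · obtain ⟨U, hU, h⟩ := c.2.2
      exact ⟨U, hU, fun s hs => by
        show f (c.1 s) = 0
        rw [h s hs, map_zero]⟩⟩
  map_zero' := by
    apply Subtype.ext
    funext g
    simp
  map_add' c c' := by
    apply Subtype.ext
    funext g
    simp

@[simp] theorem Z1map_apply (f : V →+[Γ] V') (c : Z1 𝒰 V) (g : Γ) :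
    (Z1map 𝒰 f c).1 g = f (c.1 g) := rfl

theorem B1_le_comap (f : V →+[Γ] V') : B1 𝒰 V ≤ (B1 𝒰 V').comap (Z1map 𝒰 f) := by
  rintro c ⟨x, hx⟩
  exact ⟨f x, fun g => by rw [Z1map_apply, hx g, map_sub, map_smul]⟩

/-- Push-forward on `H¹`. -/
def H1map (f : V →+[Γ] V') : H1 𝒰 V →+ H1 𝒰 V' :=
  QuotientAddGroup.map (B1 𝒰 V) (B1 𝒰 V') (Z1map 𝒰 f) (B1_le_comap 𝒰 f)

@[simp] theorem H1map_mk (f : V →+[Γ] V') (c : Z1 𝒰 V) :
    H1map 𝒰 f (H1mk 𝒰 c) = H1mk 𝒰 (Z1map 𝒰 f c) := rfl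

theorem H1map_comp (f : V →+[Γ] V') (f' : V' →+[Γ] V'') (x : H1 𝒰 V) :
    H1map 𝒰 (f'.comp f) x = H1map 𝒰 f' (H1map 𝒰 f x) := by
  obtain ⟨c, rfl⟩ := H1mk_surjective 𝒰 x
  rfl

theorem H1map_id (x : H1 𝒰 V) : H1map 𝒰 (DistribMulActionHom.id Γ) x = x := by
  obtain ⟨c, rfl⟩ := H1mk_surjective 𝒰 x
  rfl

end Functoriality

end Fermat.Agent.MAZ.SelCoh42
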