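/-
Programme MAZ (S15), brick F-INEQ, part (c) (helper42): the low-degree long exact sequence
`0 → V'^I → V^I → V''^I`, `V''^Γ → H¹(V') → H¹(V) → H¹(V'')` of a short exact sequence of `Γ`-modules,
in the level cohomology of `SelCoh42/H1.lean`.  Mathlib only.
-/
import Fermat.Agent.MAZ.SelCoh42.H1

set_option autoImplicit false

namespace Fermat.Agent.MAZ.SelCoh42

universe u v

variable {Γ : Type v} [Group Γ] (𝒰 : LevelSets Γ)

/-! ### Invariants under a subgroup -/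

section Inv

variable (I : Subgroup Γ) (V : Type u) [AddCommGroup V] [DistribMulAction Γ V]

/-- The vectors fixed by the subgroup `I`. -/
def Inv : AddSubgroup V where
  carrier := {x | ∀ s ∈ I, s • x = x}
  zero_mem' := fun s _ => smul_zero s
  add_mem' := fun {x y} hx hy s hs => by rw [smul_add, hx s hs, hy s hs]
  neg_mem' := fun {x} hx s hs => by rw [smul_neg, hx s hs]

variable {I V}

theorem mem_Inv {x : V} : x ∈ Inv I V ↔ ∀ s ∈ I, s • x = x := Iff.rfl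

theorem mem_Inv_top {x : V} : x ∈ Inv (⊤ : Subgroup Γ) V ↔ ∀ g : Γ, g • x = x :=
  ⟨fun h g => h g (Subgroup.mem_top g), fun h g _ => h g⟩

variable {V' : Type u} [AddCommGroup V'] [DistribMulAction Γ V']

variable (I) in
/-- An equivariant map induces a map on invariants. -/
def invMap (f : V →+[Γ] V') : Inv I V →+ Inv I V' where
  toFun x := ⟨f x.1, fun s hs => by rw [← map_smul, x.2 s hs]⟩
  map_zero' := Subtype.ext (map_zero f)
  map_add' x y := Subtype.ext (map_add f x.1 y.1)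

@[simp] theorem invMap_coe (f : V →+[Γ] V') (x : Inv I V) : (invMap I f x : V') = f x.1 := rfl

end Inv

/-! ### Short exact sequences -/

section Exact

variable {V' V V'' : Type u} [AddCommGroup V'] [DistribMulAction Γ V'] [AddCommGroup V]
  [DistribMulAction Γ V] [AddCommGroup V''] [DistribMulAction Γ V'']

/-- A short exact sequence `0 → V' → V → V'' → 0` of `Γ`-modules. -/
structure ShortExact (i : V' →+[Γ] V) (π : V →+[Γ] V'') : Prop where
  inj : Function.Injective i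
  surj : Function.Surjective π
  exact : ∀ x : V, π x = 0 ↔ ∃ y : V', i y = x

variable {i : V' →+[Γ] V} {π : V →+[Γ] V''}

theorem ShortExact.comp_apply (h : ShortExact i π) (y : V') : π (i y) = 0 :=
  (h.exact _).2 ⟨y, rfl⟩

theorem Z1map_injective (h : ShortExact i π) : Function.Injective (Z1map 𝒰 i) := by
  intro c c' hcc
  apply Subtype.ext
  funext g
  apply h.inj
  have := congrArg (fun z : Z1 𝒰 V => z.1 g) hcc
  simpa using this

/-- A cocycle of `V` with values in the kernel of `π` comes from a cocycle of `V'`. -/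
theorem exists_Z1map_eq (h : ShortExact i π) (c : Z1 𝒰 V) (hc : ∀ g, π (c.1 g) = 0) :
    ∃ c' : Z1 𝒰 V', Z1map 𝒰 i c' = c := by
  choose f hf using fun g => (h.exact (c.1 g)).1 (hc g)
  refine ⟨⟨f, ?_, ?_⟩, ?_⟩
  · intro g k
    apply h.inj
    rw [hf, map_add, map_smul, hf, hf, Z1.map_mul]
  · obtain ⟨U, hU, hcU⟩ := c.2.2
    refine ⟨U, hU, fun s hs => ?_⟩
    apply h.inj
    rw [hf, hcU s hs, map_zero]
  · apply Subtype.ext
    funext g
    exact hf g

theorem H1map_comp_eq_zero (h : ShortExact i π) (y : H1 𝒰 V') : H1map 𝒰 π (H1map 𝒰 i y) = 0 := by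
  obtain ⟨c, rfl⟩ := H1mk_surjective 𝒰 y
  rw [H1map_mk, H1map_mk, H1mk_eq_zero_iff]
  exact ⟨0, fun g => by simp [h.comp_apply]⟩

/-- Exactness at `H¹(V)`. -/
theorem exists_of_H1map_eq_zero (h : ShortExact i π) (hV : IsSmooth 𝒰 V) (x : H1 𝒰 V)
    (hx : H1map 𝒰 π x = 0) : ∃ y : H1 𝒰 V', H1map 𝒰 i y = x := by
  obtain ⟨c, rfl⟩ := H1mk_surjective 𝒰 x
  rw [H1map_mk, H1mk_eq_zero_iff] at hx
  obtain ⟨x'', hx''⟩ := hx
  obtain ⟨x₀, rfl⟩ := h.surj x''
  obtain ⟨c', hc'⟩ := exists_Z1map_eq 𝒰 h (c - cob 𝒰 x₀ (hV x₀)) (fun g => by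
    have := hx'' g
    simp only [Z1map_apply] at this
    simp only [AddSubgroup.coe_sub, Pi.sub_apply, cob_apply, map_sub, map_smul, this, sub_self])
  refine ⟨H1mk 𝒰 c', ?_⟩
  rw [H1map_mk, hc', map_sub, H1mk_cob, sub_zero]

/-! ### The connecting map -/

/-- The vectors of `V` whose image in `V''` is `Γ`-invariant. -/
def preInv (π : V →+[Γ] V'') : AddSubgroup V := (Inv (⊤ : Subgroup Γ) V'').comap π.toAddMonoidHom

theorem mem_preInv {x : V} : x ∈ preInv π ↔ ∀ g : Γ, g • π x = π x := by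
  unfold preInv
  rw [AddSubgroup.mem_comap]
  exact mem_Inv_top

theorem exists_dcoc (h : ShortExact i π) (hV : IsSmooth 𝒰 V) (x : V) (hx : x ∈ preInv π) :
    ∃ c' : Z1 𝒰 V', Z1map 𝒰 i c' = cob 𝒰 x (hV x) :=
  exists_Z1map_eq 𝒰 h _ (fun g => by
    rw [cob_apply, map_sub, map_smul, mem_preInv.1 hx g, sub_self])

/-- The cocycle `g ↦ i⁻¹(g x - x)` of `V'` attached to `x ∈ V` with `π x` invariant. -/
noncomputable def dcoc (h : ShortExact i π) (hV : IsSmooth 𝒰 V) (x : preInv π) : Z1 𝒰 V' :=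
  (exists_dcoc 𝒰 h hV x.1 x.2).choose

theorem Z1map_dcoc (h : ShortExact i π) (hV : IsSmooth 𝒰 V) (x : preInv π) :
    Z1map 𝒰 i (dcoc 𝒰 h hV x) = cob 𝒰 x.1 (hV x.1) :=
  (exists_dcoc 𝒰 h hV x.1 x.2).choose_spec

theorem i_dcoc_apply (h : ShortExact i π) (hV : IsSmooth 𝒰 V) (x : preInv π) (g : Γ) :
    i ((dcoc 𝒰 h hV x).1 g) = g • x.1 - x.1 := by
  have := congrArg (fun z : Z1 𝒰 V => z.1 g) (Z1map_dcoc 𝒰 h hV x)
  simpa using this

theorem dcoc_add (h : ShortExact i π) (hV : IsSmooth 𝒰 V) (x y : preInv π) :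
    dcoc 𝒰 h hV (x + y) = dcoc 𝒰 h hV x + dcoc 𝒰 h hV y := by
  apply Z1map_injective 𝒰 h
  apply Subtype.ext
  funext g
  simp only [Z1map_apply, map_add, AddSubgroup.coe_add, Pi.add_apply, i_dcoc_apply, smul_add]
  abel

/-- `dcoc` as an additive map `π⁻¹(V''^Γ) → Z¹(V')`. -/
noncomputable def dcocHom (h : ShortExact i π) (hV : IsSmooth 𝒰 V) : preInv π →+ Z1 𝒰 V' :=
  AddMonoidHom.mk' (dcoc 𝒰 h hV) (dcoc_add 𝒰 h hV)

theorem H1mk_dcoc_eq_zero_of_ker (h : ShortExact i π) (hV : IsSmooth 𝒰 V) (x : preInv π)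
    (hx : π x.1 = 0) : H1mk 𝒰 (dcoc 𝒰 h hV x) = 0 := by
  obtain ⟨t, ht⟩ := (h.exact _).1 hx
  rw [H1mk_eq_zero_iff]
  refine ⟨t, fun g => ?_⟩
  apply h.inj
  rw [i_dcoc_apply, map_sub, map_smul, ht]

theorem H1mk_dcoc_congr (h : ShortExact i π) (hV : IsSmooth 𝒰 V) (x y : preInv π)
    (hxy : π x.1 = π y.1) : H1mk 𝒰 (dcoc 𝒰 h hV x) = H1mk 𝒰 (dcoc 𝒰 h hV y) := by
  have h0 : H1mk 𝒰 (dcoc 𝒰 h hV (x - y)) = 0 :=
    H1mk_dcoc_eq_zero_of_ker 𝒰 h hV (x - y) (by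
      rw [AddSubgroup.coe_sub, map_sub, hxy, sub_self])
  have h1 : dcoc 𝒰 h hV (x - y) = dcoc 𝒰 h hV x - dcoc 𝒰 h hV y :=
    map_sub (dcocHom 𝒰 h hV) x y
  rw [h1, map_sub, sub_eq_zero] at h0
  exact h0

/-- A chosen lift to `π⁻¹(V''^Γ)` of an invariant vector of `V''`. -/
noncomputable def liftInv (h : ShortExact i π) (a : Inv (⊤ : Subgroup Γ) V'') : preInv π :=
  ⟨(h.surj a.1).choose, by
    rw [mem_preInv, (h.surj a.1).choose_spec]
    exact mem_Inv_top.1 a.2⟩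

theorem π_liftInv (h : ShortExact i π) (a : Inv (⊤ : Subgroup Γ) V'') : π (liftInv h a).1 = a.1 :=
  (h.surj a.1).choose_spec

/-- The connecting map `δ : (V'')^Γ → H¹(V')`. -/
noncomputable def delta (h : ShortExact i π) (hV : IsSmooth 𝒰 V) :
    Inv (⊤ : Subgroup Γ) V'' →+ H1 𝒰 V' :=
  AddMonoidHom.mk' (fun a => H1mk 𝒰 (dcoc 𝒰 h hV (liftInv h a))) (fun a b => by
    rw [← map_add, ← dcoc_add]
    apply H1mk_dcoc_congr
    rw [π_liftInv, AddSubgroup.coe_add, AddSubgroup.coe_add, map_add, π_liftInv, π_liftInv])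

theorem delta_apply_of (h : ShortExact i π) (hV : IsSmooth 𝒰 V) (x : preInv π)
    (a : Inv (⊤ : Subgroup Γ) V'') (hxa : π x.1 = a.1) :
    delta 𝒰 h hV a = H1mk 𝒰 (dcoc 𝒰 h hV x) := by
  show H1mk 𝒰 (dcoc 𝒰 h hV (liftInv h a)) = _
  apply H1mk_dcoc_congr
  rw [π_liftInv, hxa]

theorem H1map_delta (h : ShortExact i π) (hV : IsSmooth 𝒰 V) (a : Inv (⊤ : Subgroup Γ) V'') :
    H1map 𝒰 i (delta 𝒰 h hV a) = 0 := by
  show H1map 𝒰 i (H1mk 𝒰 (dcoc 𝒰 h hV (liftInv h a))) = 0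
  rw [H1map_mk, Z1map_dcoc, H1mk_cob]

/-- Exactness at `H¹(V')`. -/
theorem exists_delta_eq (h : ShortExact i π) (hV : IsSmooth 𝒰 V) (y : H1 𝒰 V')
    (hy : H1map 𝒰 i y = 0) : ∃ a : Inv (⊤ : Subgroup Γ) V'', delta 𝒰 h hV a = y := by
  obtain ⟨c', rfl⟩ := H1mk_surjective 𝒰 y
  rw [H1map_mk, H1mk_eq_zero_iff] at hy
  obtain ⟨x, hx⟩ := hy
  have hxP : x ∈ preInv π := by
    rw [mem_preInv]
    intro g
    have := congrArg π (hx g)
    rw [Z1map_apply, h.comp_apply, map_sub, map_smul] at this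
    exact (sub_eq_zero.1 this.symm)
  have hπx : π x ∈ Inv (⊤ : Subgroup Γ) V'' := mem_Inv_top.2 (mem_preInv.1 hxP)
  refine ⟨⟨π x, hπx⟩, ?_⟩
  rw [delta_apply_of 𝒰 h hV ⟨x, hxP⟩ ⟨π x, hπx⟩ rfl]
  congr 1
  apply Z1map_injective 𝒰 h
  apply Subtype.ext
  funext g
  rw [Z1map_apply, i_dcoc_apply, Z1map_apply] at *
  exact (hx g).symm

/-- Exactness at `(V'')^Γ`. -/
theorem delta_eq_zero_iff (h : ShortExact i π) (hV : IsSmooth 𝒰 V) (a : Inv (⊤ : Subgroup Γ) V'') :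
    delta 𝒰 h hV a = 0 ↔ ∃ x : Inv (⊤ : Subgroup Γ) V, invMap ⊤ π x = a := by
  constructor
  · intro ha
    have ha' : H1mk 𝒰 (dcoc 𝒰 h hV (liftInv h a)) = 0 := ha
    rw [H1mk_eq_zero_iff] at ha'
    obtain ⟨t, ht⟩ := ha'
    refine ⟨⟨(liftInv h a).1 - i t, mem_Inv_top.2 fun g => ?_⟩, ?_⟩
    · have := i_dcoc_apply 𝒰 h hV (liftInv h a) g
      rw [ht g, map_sub, map_smul] at this
      rw [smul_sub]
      have h2 : g • (liftInv h a).1 - g • i t - ((liftInv h a).1 - i t)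
          = (g • (liftInv h a).1 - (liftInv h a).1) - (g • i t - i t) := by abel
      rw [← sub_eq_zero, h2, ← this, sub_self]
    · apply Subtype.ext
      rw [invMap_coe]
      show π ((liftInv h a).1 - i t) = a.1
      rw [map_sub, h.comp_apply, sub_zero, π_liftInv]
  · rintro ⟨x, rfl⟩
    have hxP : x.1 ∈ preInv π := by
      rw [mem_preInv]
      intro g
      rw [← map_smul, mem_Inv_top.1 x.2 g]
    rw [delta_apply_of 𝒰 h hV ⟨x.1, hxP⟩ (invMap ⊤ π x) rfl, H1mk_eq_zero_iff]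
    refine ⟨0, fun g => ?_⟩
    apply h.inj
    rw [i_dcoc_apply]
    show g • x.1 - x.1 = i (g • 0 - 0)
    rw [mem_Inv_top.1 x.2 g, sub_self, smul_zero, sub_zero, map_zero]

/-! ### Left exactness of invariants -/

variable (I : Subgroup Γ)

theorem invMap_injective (h : ShortExact i π) : Function.Injective (invMap I i) := by
  intro x y hxy
  apply Subtype.ext
  apply h.inj
  exact congrArg Subtype.val hxy

theorem invMap_eq_zero_iff (h : ShortExact i π) (x : Inv I V) :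
    invMap I π x = 0 ↔ ∃ y : Inv I V', invMap I i y = x := by
  constructor
  · intro hx
    have hx' : π x.1 = 0 := congrArg Subtype.val hx
    obtain ⟨y, hy⟩ := (h.exact _).1 hx'
    refine ⟨⟨y, fun s hs => ?_⟩, Subtype.ext hy⟩
    apply h.inj
    rw [map_smul, hy, x.2 s hs]
  · rintro ⟨y, rfl⟩
    apply Subtype.ext
    show π (i y.1) = 0
    exact h.comp_apply y.1

end Exact

end Fermat.Agent.MAZ.SelCoh42
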