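/-
Programme MAZ (S15), brick F-INEQ, part (c) (helper42): **Selmer groups and the one-step inequality.**

`Γ` a group with level basis `𝒰`, `I ≤ Γ` a subgroup ("inertia at `p`").  A `SelmerSystem` is a class `mem`
of `Γ`-modules together with subgroups `cond V ≤ H¹(Γ, V)` which are functorial (`push`) and satisfy
`pull`: for an INJECTIVE map `f`, `f_* x ∈ cond V' → x ∈ cond V`.  [Examples: "the extension module of the
class has a finite flat model at `r`" (sub/quotient/product closure of finite flat models); "unramified at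
`ℓ`" on modules which are unramified at `ℓ`.]  The Selmer group is

  `Sel V = cond V ⊓ ker (res : H¹(Γ, V) → H¹(I, V))`   (`H¹(I, V)`: all cocycles of the abstract group `I`).

Main result `sel_step`: for a short exact sequence `0 → V' → V → V'' → 0` of finite modules in the class,
`Sel V` is finite as soon as `Sel V'`, `Sel V''` are, and

  `|Sel V| * |V'^Γ| * |V''^Γ| * |V^I|  ≤  |Sel V'| * |Sel V''| * |V^Γ| * |V'^I| * |V''^I|`,

i.e. `Ψ(V) := |Sel V| * |V^I| / |V^Γ|` is submultiplicative.  (Counting: helper5's `SelIneq5/Count.lean`.)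
Mathlib only.
-/
import Fermat.Agent.MAZ.SelCoh42.LES
import Fermat.Agent.MAZ.SelIneq5.Abstract

set_option autoImplicit false

namespace Fermat.Agent.MAZ.SelCoh42

universe u v

open Fermat.Agent.MAZ.SelIneq5

variable {Γ : Type v} [Group Γ] (𝒰 : LevelSets Γ) (I : Subgroup Γ)

/-! ### Restriction to a subgroup (abstract cohomology of the subgroup) -/

/-- The level basis `{⊥}`: every cocycle is level, every module is smooth. -/
def LevelSets.discrete (G : Type v) [Group G] : LevelSets G where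
  sets := {⊥}
  nonempty := ⟨⊥, rfl⟩
  directed := by
    rintro U rfl W rfl
    exact ⟨⊥, rfl, le_inf le_rfl le_rfl⟩

theorem isSmooth_discrete (G : Type v) [Group G] (V : Type u) [AddCommGroup V] [DistribMulAction G V] :
    IsSmooth (LevelSets.discrete G) V := fun x =>
  ⟨⊥, rfl, fun s hs => by rw [Subgroup.mem_bot.1 hs, one_smul]⟩

section Res

variable {V : Type u} [AddCommGroup V] [DistribMulAction Γ V]
  {V' : Type u} [AddCommGroup V'] [DistribMulAction Γ V']
  {V'' : Type u} [AddCommGroup V''] [DistribMulAction Γ V'']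

/-- An equivariant map, seen as equivariant for a subgroup. -/
def resHom (f : V →+[Γ] V') : V →+[I] V' where
  toFun := f
  map_smul' s x := by
    show f ((s : Γ) • x) = (s : Γ) • f x
    exact map_smul f _ x
  map_zero' := map_zero f
  map_add' := map_add f

@[simp] theorem resHom_apply (f : V →+[Γ] V') (x : V) : resHom I f x = f x := rfl

theorem ShortExact.res {i : V' →+[Γ] V} {π : V →+[Γ] V''} (h : ShortExact i π) :
    ShortExact (resHom I i) (resHom I π) :=
  ⟨h.inj, h.surj, h.exact⟩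

/-- Restriction of cocycles to the subgroup `I`. -/
def Z1res : Z1 𝒰 V →+ Z1 (LevelSets.discrete I) V where
  toFun c := ⟨fun s => c.1 (s : Γ), by
    refine ⟨fun s t => ?_, ⊥, rfl, fun s hs => ?_⟩
    · show c.1 ((s * t : I) : Γ) = c.1 (s : Γ) + (s : Γ) • c.1 (t : Γ)
      rw [Subgroup.coe_mul, Z1.map_mul]
    · show c.1 (s : Γ) = 0
      rw [Subgroup.mem_bot.1 hs, Subgroup.coe_one, Z1.map_one]⟩
  map_zero' := rfl
  map_add' _ _ := rfl

@[simp] theorem Z1res_apply (c : Z1 𝒰 V) (s : I) : (Z1res 𝒰 I c).1 s = c.1 (s : Γ) := rfl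

/-- Restriction `H¹(Γ, V) → H¹(I, V)`. -/
def H1res : H1 𝒰 V →+ H1 (LevelSets.discrete I) V :=
  QuotientAddGroup.map (B1 𝒰 V) (B1 (LevelSets.discrete I) V) (Z1res 𝒰 I) (by
    rintro c ⟨x, hx⟩
    exact ⟨x, fun s => hx (s : Γ)⟩)

@[simp] theorem H1res_mk (c : Z1 𝒰 V) : H1res 𝒰 I (H1mk 𝒰 c) = H1mk _ (Z1res 𝒰 I c) := rfl

theorem H1res_H1map (f : V →+[Γ] V') (x : H1 𝒰 V) :
    H1res 𝒰 I (H1map 𝒰 f x) = H1map (LevelSets.discrete I) (resHom I f) (H1res 𝒰 I x) := by
  obtain ⟨c, rfl⟩ := H1mk_surjective 𝒰 x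
  rfl

/-- A class is unramified at `I` iff one (any) representing cocycle is a coboundary on `I`. -/
theorem H1res_mk_eq_zero_iff (c : Z1 𝒰 V) :
    H1res 𝒰 I (H1mk 𝒰 c) = 0 ↔ ∃ x : V, ∀ s ∈ I, c.1 s = s • x - x := by
  rw [H1res_mk, H1mk_eq_zero_iff]
  constructor
  · rintro ⟨x, hx⟩
    exact ⟨x, fun s hs => hx ⟨s, hs⟩⟩
  · rintro ⟨x, hx⟩
    exact ⟨x, fun s => hx s.1 s.2⟩

theorem Inv_top_subgroup (V : Type u) [AddCommGroup V] [DistribMulAction Γ V] :
    Inv (⊤ : Subgroup I) V = Inv I V := by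
  ext x
  rw [mem_Inv_top, mem_Inv]
  constructor
  · intro h s hs
    exact h ⟨s, hs⟩
  · intro h s
    exact h s.1 s.2

end Res

/-! ### Selmer systems -/

/-- A functorial family of local conditions with the pull-back property along injections, on a class of
`Γ`-modules. -/
structure SelmerSystem where
  /-- the class of modules -/
  mem : ∀ (V : Type u) [AddCommGroup V] [DistribMulAction Γ V], Prop
  /-- the condition -/
  cond : ∀ (V : Type u) [AddCommGroup V] [DistribMulAction Γ V], AddSubgroup (H1 𝒰 V)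
  push : ∀ {V V' : Type u} [AddCommGroup V] [DistribMulAction Γ V] [AddCommGroup V']
    [DistribMulAction Γ V'] (f : V →+[Γ] V'), mem V → mem V' →
    ∀ x ∈ cond V, H1map 𝒰 f x ∈ cond V'
  pull : ∀ {V V' : Type u} [AddCommGroup V] [DistribMulAction Γ V] [AddCommGroup V']
    [DistribMulAction Γ V'] (f : V →+[Γ] V'), Function.Injective f → mem V → mem V' →
    ∀ x : H1 𝒰 V, H1map 𝒰 f x ∈ cond V' → x ∈ cond V

variable {𝒰}

/-- The Selmer group: classes satisfying the condition and unramified at `I`. -/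
def Sel (S : SelmerSystem.{u} 𝒰) (V : Type u) [AddCommGroup V] [DistribMulAction Γ V] :
    AddSubgroup (H1 𝒰 V) :=
  S.cond V ⊓ (H1res 𝒰 I).ker

section Step

variable (S : SelmerSystem.{u} 𝒰)
  {V' V V'' : Type u} [AddCommGroup V'] [DistribMulAction Γ V'] [AddCommGroup V]
  [DistribMulAction Γ V] [AddCommGroup V''] [DistribMulAction Γ V'']
  {i : V' →+[Γ] V} {π : V →+[Γ] V''}

theorem mem_Sel {x : H1 𝒰 V} : x ∈ Sel I S V ↔ x ∈ S.cond V ∧ H1res 𝒰 I x = 0 := Iff.rfl

theorem H1map_mem_Sel (f : V →+[Γ] V') (hV : S.mem V) (hV' : S.mem V') {x : H1 𝒰 V}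
    (hx : x ∈ Sel I S V) : H1map 𝒰 f x ∈ Sel I S V' := by
  refine ⟨S.push f hV hV' x hx.1, ?_⟩
  show H1res 𝒰 I (H1map 𝒰 f x) = 0
  rw [H1res_H1map, (mem_Sel I S).1 hx |>.2, map_zero]

/-- The defect group: the kernel of `H¹(I, V') → H¹(I, V)`. -/
def defect (i : V' →+[Γ] V) : AddSubgroup (H1 (LevelSets.discrete I) V') :=
  (H1map (LevelSets.discrete I) (resHom I i)).ker

/-- `|defect| * |V^I| = |V'^I| * |V''^I|`. -/
theorem card_defect_mul [Finite V] [Finite V''] (h : ShortExact i π) :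
    Nat.card (defect I i) * Nat.card (Inv I V) = Nat.card (Inv I V') * Nat.card (Inv I V'') := by
  have hI := h.res I
  have hsm := isSmooth_discrete I V
  have key := Count.card_ker_mul_card (invMap ⊤ (resHom I i)) (invMap ⊤ (resHom I π))
    (delta (LevelSets.discrete I) hI hsm) (H1map (LevelSets.discrete I) (resHom I i))
    (invMap_injective ⊤ hI)
    (by
      ext x
      rw [AddMonoidHom.mem_ker, invMap_eq_zero_iff ⊤ hI, AddMonoidHom.mem_range])
    (by
      ext a
      rw [AddMonoidHom.mem_ker, delta_eq_zero_iff, AddMonoidHom.mem_range])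
    (by
      ext y
      rw [AddMonoidHom.mem_ker, AddMonoidHom.mem_range]
      constructor
      · intro hy
        exact exists_delta_eq _ hI hsm y hy
      · rintro ⟨a, rfl⟩
        exact H1map_delta _ hI hsm a)
  rw [Inv_top_subgroup, Inv_top_subgroup, Inv_top_subgroup] at key
  exact key

theorem finite_defect [Finite V''] (h : ShortExact i π) : Finite (defect I i) := by
  have hI := h.res I
  have hsm := isSmooth_discrete I V
  have hsurj : Function.Surjective
      (fun a : Inv (⊤ : Subgroup I) V'' => (⟨delta (LevelSets.discrete I) hI hsm a,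
        H1map_delta _ hI hsm a⟩ : defect I i)) := by
    rintro ⟨y, hy⟩
    obtain ⟨a, rfl⟩ := exists_delta_eq _ hI hsm y hy
    exact ⟨a, rfl⟩
  exact Finite.of_surjective _ hsurj

/-- **The one-step inequality.** -/
theorem sel_step [Finite V] [Finite V''] (h : ShortExact i π) (hsm : IsSmooth 𝒰 V)
    (hV' : S.mem V') (hV : S.mem V) (hV'' : S.mem V'')
    [Finite (Sel I S V')] [Finite (Sel I S V'')] :
    Finite (Sel I S V) ∧
      Nat.card (Sel I S V) * Nat.card (Inv (⊤ : Subgroup Γ) V') * Nat.card (Inv (⊤ : Subgroup Γ) V'')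
          * Nat.card (Inv I V)
        ≤ Nat.card (Sel I S V') * Nat.card (Sel I S V'') * Nat.card (Inv (⊤ : Subgroup Γ) V)
          * Nat.card (Inv I V') * Nat.card (Inv I V'') := by
  have := finite_defect I (V := V) h
  have hπ : ∀ x ∈ Sel I S V, H1map 𝒰 π x ∈ Sel I S V'' := fun x hx =>
    H1map_mem_Sel I S π hV hV'' hx
  have hiπ : (H1map 𝒰 π).ker = (H1map 𝒰 i).range := by
    ext x
    rw [AddMonoidHom.mem_ker, AddMonoidHom.mem_range]
    constructor
    · intro hx
      exact exists_of_H1map_eq_zero 𝒰 h hsm x hx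
    · rintro ⟨y, rfl⟩
      exact H1map_comp_eq_zero 𝒰 h y
  have hker : ∀ x : H1 𝒰 V', H1map 𝒰 i x ∈ Sel I S V → H1res 𝒰 I x = 0 → x ∈ Sel I S V' :=
    fun x hx hx0 => ⟨S.pull i h.inj hV' hV x hx.1, hx0⟩
  have hT : ∀ x : H1 𝒰 V', H1map 𝒰 i x ∈ Sel I S V → H1res 𝒰 I x ∈ defect I i := by
    intro x hx
    show H1map (LevelSets.discrete I) (resHom I i) (H1res 𝒰 I x) = 0
    rw [← H1res_H1map]
    exact hx.2
  refine ⟨Count.finite_of_exact_of_defect (H1map 𝒰 i) (H1map 𝒰 π) hiπ (Sel I S V') (Sel I S V)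
    (Sel I S V'') hπ (H1res 𝒰 I) (defect I i) hker hT, ?_⟩
  have hcount := Count.card_mul_le_of_exact_of_defect
    (invMap ⊤ i) (invMap ⊤ π) (delta 𝒰 h hsm) (H1map 𝒰 i) (H1map 𝒰 π)
    (invMap_injective ⊤ h)
    (by
      ext x
      rw [AddMonoidHom.mem_ker, invMap_eq_zero_iff ⊤ h, AddMonoidHom.mem_range])
    (by
      ext a
      rw [AddMonoidHom.mem_ker, delta_eq_zero_iff, AddMonoidHom.mem_range])
    (by
      ext y
      rw [AddMonoidHom.mem_ker, AddMonoidHom.mem_range]
      constructor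
      · intro hy
        exact exists_delta_eq 𝒰 h hsm y hy
      · rintro ⟨a, rfl⟩
        exact H1map_delta 𝒰 h hsm a)
    hiπ (Sel I S V') (Sel I S V) (Sel I S V'') hπ (H1res 𝒰 I) (defect I i) hker hT
  have hdefect := card_defect_mul I (V := V) h
  have hpos : 0 < Nat.card (defect I i) := Nat.card_pos
  exact Abstract.step_of_defect hpos hcount hdefect

end Step

end Fermat.Agent.MAZ.SelCoh42
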