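/-
Programme MAZ (S15), brick F-INEQ, part (c), add-on (helper42): **the Selmer inequality from its simple
objects.**

`StableSub Γ V` : a `Γ`-stable subgroup `T.W` of a `Γ`-module `V`, with the induced module structures on
`T.W` and `V ⧸ T.W` (instances keyed on `T`) and the short exact sequence `0 → T.W → V → V ⧸ T.W → 0`.

Main result `sel_bound_of_simple`: let the class `S.mem` be closed under `Γ`-stable subgroups and their
quotients, let `ω` be a weight on modules with `ω V' * ω V'' ≤ ω V` on short exact sequences of the class,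
and assume the bound

  `Finite (Sel V) ∧ |Sel V| * |V^I| ≤ |V^Γ| * ω V`

for every finite smooth module of the class WITHOUT proper nonzero `Γ`-stable subgroups.  Then it holds for
every finite smooth module of the class.  (Application: `ω V = |V^{c = -1}|` for a complex conjugation `c`,
`r` odd; simple objects are `ℤ/r` and `μ_r` by F-SIMPLE; `|V^I|² ≥ |V|` and `ω(V)² ≤ |V|` then give
`|Sel V| ≤ |V^Γ|`.)  Mathlib only.
-/
import Fermat.Agent.MAZ.SelCoh42.Sel

set_option autoImplicit false

namespace Fermat.Agent.MAZ.SelCoh42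

universe u v

variable {Γ : Type v} [Group Γ]

/-! ### Stable subgroups, sub- and quotient modules -/

/-- A `Γ`-stable subgroup of a `Γ`-module. -/
structure StableSub (Γ : Type v) [Group Γ] (V : Type u) [AddCommGroup V] [DistribMulAction Γ V] where
  /-- the subgroup -/
  W : AddSubgroup V
  stable : ∀ (g : Γ) (x : V), x ∈ W → g • x ∈ W

section SubQuot

variable {V : Type u} [AddCommGroup V] [DistribMulAction Γ V] (T : StableSub Γ V)

instance StableSub.instSub : DistribMulAction Γ T.W where
  smul g x := ⟨g • x.1, T.stable g x.1 x.2⟩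
  one_smul x := Subtype.ext (one_smul Γ x.1)
  mul_smul g h x := Subtype.ext (mul_smul g h x.1)
  smul_zero g := Subtype.ext (smul_zero g)
  smul_add g x y := Subtype.ext (smul_add g x.1 y.1)

@[simp] theorem StableSub.coe_smul (g : Γ) (x : T.W) : ((g • x : T.W) : V) = g • (x : V) := rfl

/-- The action of `g` on the quotient, as an additive map. -/
def StableSub.quotSmul (g : Γ) : V ⧸ T.W →+ V ⧸ T.W :=
  QuotientAddGroup.map T.W T.W (DistribSMul.toAddMonoidHom V g) (fun x hx => T.stable g x hx)

theorem StableSub.quotSmul_mk (g : Γ) (x : V) :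
    T.quotSmul g (QuotientAddGroup.mk x) = QuotientAddGroup.mk (g • x) := rfl

instance StableSub.instQuot : DistribMulAction Γ (V ⧸ T.W) where
  smul g q := T.quotSmul g q
  one_smul q := by
    induction q using QuotientAddGroup.induction_on with
    | H x =>
      show T.quotSmul 1 (QuotientAddGroup.mk x) = QuotientAddGroup.mk x
      rw [StableSub.quotSmul_mk, one_smul]
  mul_smul g h q := by
    induction q using QuotientAddGroup.induction_on with
    | H x =>
      show T.quotSmul (g * h) (QuotientAddGroup.mk x)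
        = T.quotSmul g (T.quotSmul h (QuotientAddGroup.mk x))
      rw [StableSub.quotSmul_mk, StableSub.quotSmul_mk, StableSub.quotSmul_mk, mul_smul]
  smul_zero g := map_zero (T.quotSmul g)
  smul_add g q q' := map_add (T.quotSmul g) q q'

theorem StableSub.smul_mk (g : Γ) (x : V) :
    g • (QuotientAddGroup.mk x : V ⧸ T.W) = QuotientAddGroup.mk (g • x) := rfl

/-- The inclusion of a stable subgroup. -/
def StableSub.incl : T.W →+[Γ] V where
  toFun x := x.1
  map_smul' _ _ := rfl
  map_zero' := rfl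
  map_add' _ _ := rfl

/-- The projection onto the quotient by a stable subgroup. -/
def StableSub.proj : V →+[Γ] V ⧸ T.W where
  toFun x := QuotientAddGroup.mk x
  map_smul' _ _ := rfl
  map_zero' := rfl
  map_add' _ _ := rfl

@[simp] theorem StableSub.incl_apply (x : T.W) : T.incl x = x.1 := rfl

@[simp] theorem StableSub.proj_apply (x : V) : T.proj x = QuotientAddGroup.mk x := rfl

theorem StableSub.shortExact : ShortExact T.incl T.proj where
  inj := Subtype.val_injective
  surj := QuotientAddGroup.mk_surjective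
  exact x := by
    rw [StableSub.proj_apply, QuotientAddGroup.eq_zero_iff]
    constructor
    · intro hx
      exact ⟨⟨x, hx⟩, rfl⟩
    · rintro ⟨y, rfl⟩
      exact y.2

theorem StableSub.isSmooth_sub (𝒰 : LevelSets Γ) (hV : IsSmooth 𝒰 V) : IsSmooth 𝒰 T.W := by
  intro x
  obtain ⟨U, hU, h⟩ := hV x.1
  exact ⟨U, hU, fun s hs => Subtype.ext (h s hs)⟩

theorem StableSub.isSmooth_quot (𝒰 : LevelSets Γ) (hV : IsSmooth 𝒰 V) : IsSmooth 𝒰 (V ⧸ T.W) := by
  intro q
  induction q using QuotientAddGroup.induction_on with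
  | H x =>
    obtain ⟨U, hU, h⟩ := hV x
    exact ⟨U, hU, fun s hs => by rw [StableSub.smul_mk, h s hs]⟩

end SubQuot

/-- A module without proper nonzero stable subgroups (simple or zero). -/
def IsSimpleOrZero (Γ : Type v) [Group Γ] (V : Type u) [AddCommGroup V] [DistribMulAction Γ V] : Prop :=
  ∀ T : StableSub Γ V, T.W = ⊥ ∨ T.W = ⊤

/-! ### The induction -/

variable {𝒰 : LevelSets Γ} (S : SelmerSystem.{u} 𝒰) (I : Subgroup Γ)

/-- The bound `Finite (Sel V) ∧ |Sel V| * |V^I| ≤ |V^Γ| * w`. -/
def SelBound (V : Type u) [AddCommGroup V] [DistribMulAction Γ V] (w : ℕ) : Prop :=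
  Finite (Sel I S V) ∧
    Nat.card (Sel I S V) * Nat.card (Inv I V) ≤ Nat.card (Inv (⊤ : Subgroup Γ) V) * w

/-- The bound for the middle term of a short exact sequence from the bounds for the outer terms. -/
theorem SelBound.of_shortExact {V' V V'' : Type u} [AddCommGroup V'] [DistribMulAction Γ V']
    [AddCommGroup V] [DistribMulAction Γ V] [AddCommGroup V''] [DistribMulAction Γ V'']
    [Finite V] [Finite V''] {i : V' →+[Γ] V} {π : V →+[Γ] V''} (h : ShortExact i π)
    (hsm : IsSmooth 𝒰 V) (hV' : S.mem V') (hV : S.mem V) (hV'' : S.mem V'') {w' w'' : ℕ}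
    (h' : SelBound S I V' w') (h'' : SelBound S I V'' w'') : SelBound S I V (w' * w'') := by
  have hfin' := h'.1
  have hfin'' := h''.1
  obtain ⟨hfin, hstep⟩ := sel_step I S h hsm hV' hV hV''
  refine ⟨hfin, ?_⟩
  have hpos : 0 < Nat.card (Inv (⊤ : Subgroup Γ) V') * Nat.card (Inv (⊤ : Subgroup Γ) V'') := by
    have : Finite V' := Finite.of_injective _ h.inj
    exact Nat.mul_pos Nat.card_pos Nat.card_pos
  apply Nat.le_of_mul_le_mul_right _ hpos
  calc Nat.card (Sel I S V) * Nat.card (Inv I V)
        * (Nat.card (Inv (⊤ : Subgroup Γ) V') * Nat.card (Inv (⊤ : Subgroup Γ) V''))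
      = Nat.card (Sel I S V) * Nat.card (Inv (⊤ : Subgroup Γ) V')
          * Nat.card (Inv (⊤ : Subgroup Γ) V'') * Nat.card (Inv I V) := by ring
    _ ≤ Nat.card (Sel I S V') * Nat.card (Sel I S V'') * Nat.card (Inv (⊤ : Subgroup Γ) V)
          * Nat.card (Inv I V') * Nat.card (Inv I V'') := hstep
    _ = (Nat.card (Sel I S V') * Nat.card (Inv I V')) * (Nat.card (Sel I S V'') * Nat.card (Inv I V''))
          * Nat.card (Inv (⊤ : Subgroup Γ) V) := by ring
    _ ≤ (Nat.card (Inv (⊤ : Subgroup Γ) V') * w') * (Nat.card (Inv (⊤ : Subgroup Γ) V'') * w'')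
          * Nat.card (Inv (⊤ : Subgroup Γ) V) :=
        Nat.mul_le_mul_right _ (Nat.mul_le_mul h'.2 h''.2)
    _ = Nat.card (Inv (⊤ : Subgroup Γ) V) * (w' * w'')
          * (Nat.card (Inv (⊤ : Subgroup Γ) V') * Nat.card (Inv (⊤ : Subgroup Γ) V'')) := by ring

theorem SelBound.mono {V : Type u} [AddCommGroup V] [DistribMulAction Γ V] {w w' : ℕ}
    (h : SelBound S I V w) (hw : w ≤ w') : SelBound S I V w' :=
  ⟨h.1, h.2.trans (Nat.mul_le_mul_left _ hw)⟩

/-- **Consumer form**: the bound `SelBound V w` together with `|V| ≤ |V^I|²` (unipotent inertia of level 2)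
and `w² ≤ |V|` (at least as many trivial as cyclotomic constituents) gives `|Sel V| ≤ |V^Γ|`. -/
theorem SelBound.card_le {V : Type u} [AddCommGroup V] [DistribMulAction Γ V] [Finite V] {w : ℕ}
    (h : SelBound S I V w) (hI : Nat.card V ≤ Nat.card (Inv I V) ^ 2) (hw : w ^ 2 ≤ Nat.card V) :
    Nat.card (Sel I S V) ≤ Nat.card (Inv (⊤ : Subgroup Γ) V) := by
  have ha : 0 < Nat.card (Inv I V) := Nat.card_pos
  have h1 : (Nat.card (Sel I S V) * Nat.card (Inv I V)) ^ 2
      ≤ (Nat.card (Inv (⊤ : Subgroup Γ) V) * w) ^ 2 := Nat.pow_le_pow_left h.2 2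
  have h2 : (Nat.card (Inv (⊤ : Subgroup Γ) V) * w) ^ 2
      ≤ (Nat.card (Inv (⊤ : Subgroup Γ) V) * Nat.card (Inv I V)) ^ 2 := by
    rw [mul_pow, mul_pow]
    exact Nat.mul_le_mul_left _ (hw.trans hI)
  have h3 := (Nat.pow_le_pow_iff_left (two_ne_zero)).1 (h1.trans h2)
  exact Nat.le_of_mul_le_mul_right h3 ha

/-- **The Selmer inequality from its simple objects.** -/
theorem sel_bound_of_simple
    (ω : ∀ (V : Type u) [AddCommGroup V] [DistribMulAction Γ V], ℕ)
    (hclosed : ∀ (V : Type u) [AddCommGroup V] [DistribMulAction Γ V] (T : StableSub Γ V),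
      S.mem V → S.mem T.W ∧ S.mem (V ⧸ T.W))
    (hω : ∀ (V : Type u) [AddCommGroup V] [DistribMulAction Γ V] [Finite V] (T : StableSub Γ V),
      S.mem V → ω T.W * ω (V ⧸ T.W) ≤ ω V)
    (hbase : ∀ (V : Type u) [AddCommGroup V] [DistribMulAction Γ V] [Finite V],
      IsSmooth 𝒰 V → S.mem V → IsSimpleOrZero Γ V → SelBound S I V (ω V))
    (V : Type u) [AddCommGroup V] [DistribMulAction Γ V] [Finite V]
    (hsm : IsSmooth 𝒰 V) (hV : S.mem V) : SelBound S I V (ω V) := by
  -- strong induction on the cardinality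
  suffices H : ∀ (n : ℕ) (V : Type u) [AddCommGroup V] [DistribMulAction Γ V] [Finite V],
      Nat.card V ≤ n → IsSmooth 𝒰 V → S.mem V → SelBound S I V (ω V) from
    H (Nat.card V) V le_rfl hsm hV
  intro n
  induction n with
  | zero =>
    intro V _ _ _ hn
    exact absurd (Nat.le_zero.1 hn) (Nat.card_pos).ne'
  | succ n ih =>
    intro V _ _ _ hn hsm hV
    by_cases hs : IsSimpleOrZero Γ V
    · exact hbase V hsm hV hs
    · -- a proper nonzero stable subgroup
      unfold IsSimpleOrZero at hs
      rw [not_forall] at hs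
      obtain ⟨T, hT⟩ := hs
      rw [not_or] at hT
      obtain ⟨hbot, htop⟩ := hT
      have hcardV : Nat.card V = Nat.card T.W * Nat.card (V ⧸ T.W) := by
        rw [mul_comm]
        exact AddSubgroup.card_eq_card_quotient_mul_card_addSubgroup T.W
      have hW1 : 1 < Nat.card T.W := by
        rw [Finite.one_lt_card_iff_nontrivial]
        exact (AddSubgroup.nontrivial_iff_ne_bot T.W).2 hbot
      have hQ1 : 1 < Nat.card (V ⧸ T.W) := by
        rw [Finite.one_lt_card_iff_nontrivial]
        by_contra hnt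
        rw [not_nontrivial_iff_subsingleton] at hnt
        exact htop (QuotientAddGroup.subsingleton_iff.1 hnt)
      have hWlt : Nat.card T.W ≤ n := by
        have : Nat.card T.W * 2 ≤ Nat.card T.W * Nat.card (V ⧸ T.W) :=
          Nat.mul_le_mul_left _ hQ1
        omega
      have hQlt : Nat.card (V ⧸ T.W) ≤ n := by
        have : 2 * Nat.card (V ⧸ T.W) ≤ Nat.card T.W * Nat.card (V ⧸ T.W) :=
          Nat.mul_le_mul_right _ hW1
        omega
      obtain ⟨hmW, hmQ⟩ := hclosed V T hV
      have bW := ih T.W hWlt (T.isSmooth_sub 𝒰 hsm) hmW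
      have bQ := ih (V ⧸ T.W) hQlt (T.isSmooth_quot 𝒰 hsm) hmQ
      exact (SelBound.of_shortExact S I T.shortExact hsm hmW hV hmQ bW bQ).mono S I (hω V T hV)

end Fermat.Agent.MAZ.SelCoh42
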