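/-
Programme MAZ (S15), Selmer core (helper42): **adding "unramified at `J`" conditions to a Selmer system.**

For a family `𝒥` of subgroups of `Γ` (inertia groups at the primes `ℓ ∤ p r`), `S.unram 𝒥` is the Selmer
system on the class of modules of `S` on which every `J ∈ 𝒥` acts trivially, with condition
`S.cond V ⊓ ⨅ J ∈ 𝒥, ker (res_J)`.  `push` is clear; `pull` along an injection `f : V → V'` holds because
`J` acts trivially: `H¹(J, V) = Hom(J, V)` and `f ∘ c|_J = 0` forces `c|_J = 0`.  Mathlib only.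
-/
import Fermat.Agent.MAZ.SelCoh42.Sel

set_option autoImplicit false

namespace Fermat.Agent.MAZ.SelCoh42

universe u v

variable {Γ : Type v} [Group Γ] {𝒰 : LevelSets Γ}

/-- `J` acts trivially on `V`. -/
def ActsTrivially (J : Subgroup Γ) (V : Type u) [AddCommGroup V] [DistribMulAction Γ V] : Prop :=
  ∀ s ∈ J, ∀ x : V, s • x = x

/-- The classes unramified at every `J ∈ 𝒥`. -/
def unramAt (𝒥 : Set (Subgroup Γ)) (V : Type u) [AddCommGroup V] [DistribMulAction Γ V] :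
    AddSubgroup (H1 𝒰 V) :=
  ⨅ J ∈ 𝒥, (H1res 𝒰 J).ker

theorem mem_unramAt {𝒥 : Set (Subgroup Γ)} {V : Type u} [AddCommGroup V] [DistribMulAction Γ V]
    {x : H1 𝒰 V} : x ∈ unramAt (𝒰 := 𝒰) 𝒥 V ↔ ∀ J ∈ 𝒥, H1res 𝒰 J x = 0 := by
  unfold unramAt
  simp only [AddSubgroup.mem_iInf, AddMonoidHom.mem_ker]

/-- On a module with trivial `J`-action, a class is unramified at `J` iff a (any) representing cocycle
vanishes on `J`. -/
theorem H1res_mk_eq_zero_iff_of_trivial {J : Subgroup Γ} {V : Type u} [AddCommGroup V]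
    [DistribMulAction Γ V] (hJ : ActsTrivially J V) (c : Z1 𝒰 V) :
    H1res 𝒰 J (H1mk 𝒰 c) = 0 ↔ ∀ s ∈ J, c.1 s = 0 := by
  rw [H1res_mk_eq_zero_iff]
  constructor
  · rintro ⟨x, hx⟩ s hs
    rw [hx s hs, hJ s hs x, sub_self]
  · intro h
    exact ⟨0, fun s hs => by rw [h s hs, smul_zero, sub_zero]⟩

/-- Adding the conditions "unramified at every `J ∈ 𝒥`" to a Selmer system, on the modules with trivial
action of every `J ∈ 𝒥`. -/
def SelmerSystem.unram (S : SelmerSystem.{u} 𝒰) (𝒥 : Set (Subgroup Γ)) : SelmerSystem.{u} 𝒰 where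
  mem V _ _ := S.mem V ∧ ∀ J ∈ 𝒥, ActsTrivially J V
  cond V _ _ := S.cond V ⊓ unramAt 𝒥 V
  push := by
    intro V V' _ _ _ _ f hV hV' x hx
    refine ⟨S.push f hV.1 hV'.1 x hx.1, ?_⟩
    show H1map 𝒰 f x ∈ unramAt 𝒥 V'
    rw [mem_unramAt]
    intro J hJ
    rw [H1res_H1map, (mem_unramAt.1 hx.2) J hJ, map_zero]
  pull := by
    intro V V' _ _ _ _ f hf hV hV' x hx
    refine ⟨S.pull f hf hV.1 hV'.1 x hx.1, ?_⟩
    show x ∈ unramAt 𝒥 V
    rw [mem_unramAt]
    intro J hJ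
    obtain ⟨c, rfl⟩ := H1mk_surjective 𝒰 x
    have h1 := (mem_unramAt.1 hx.2) J hJ
    rw [H1map_mk, H1res_mk_eq_zero_iff_of_trivial (hV'.2 J hJ)] at h1
    rw [H1res_mk_eq_zero_iff_of_trivial (hV.2 J hJ)]
    intro s hs
    apply hf
    rw [map_zero]
    exact h1 s hs

end Fermat.Agent.MAZ.SelCoh42
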