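/-
Programme MAZ (S15), Selmer core (helper42): **Selmer groups with a finite family of defect subgroups.**

Generalisation of `SelCoh42/{Sel,Simple}.lean` from one subgroup `I` to a family `I : ι → Subgroup Γ`
(`[Fintype ι]`): `SelF S I V = S.cond V ⊓ ⨅ j, ker (res_{I j})`.  One-step inequality

  `|SelF V| * |V'^Γ| * |V''^Γ| * ∏ j |V^{I j}| ≤ |SelF V'| * |SelF V''| * |V^Γ| * ∏ j |V'^{I j}| * ∏ j |V''^{I j}|`,

the bound `SelBoundF S I V w := Finite (SelF V) ∧ |SelF V| * ∏ j |V^{I j}| ≤ |V^Γ| * w`, its propagation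
along short exact sequences, and `selF_bound_of_simple` (bound for simple objects ⇒ bound for all).

USE (uniform in the residue characteristic `r`, helper86's observation): family `{I_p, ⟨c_∞⟩}` and weight
`ω V = |V|`; all simple objects (`ℤ/r`, `μ_r`; `ℤ/2` for `r = 2`) satisfy `SelBoundF W |W|` as soon as
`SelF W = 0`; then `|V| ≤ |V^{I_p}|²` and `|V| ≤ |V^{c_∞}|²` give `|SelF V| ≤ |V^Γ|`
(`SelBoundF.card_le_of_two`).  Mathlib only.
-/
import Fermat.Agent.MAZ.SelCoh42.Simple

set_option autoImplicit false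

namespace Fermat.Agent.MAZ.SelCoh42

universe u v

open Fermat.Agent.MAZ.SelIneq5

variable {Γ : Type v} [Group Γ] {𝒰 : LevelSets Γ} (S : SelmerSystem.{u} 𝒰)
  {ι : Type} [Fintype ι] (I : ι → Subgroup Γ)

/-- The Selmer group for a family of defect subgroups. -/
def SelF (V : Type u) [AddCommGroup V] [DistribMulAction Γ V] : AddSubgroup (H1 𝒰 V) :=
  S.cond V ⊓ ⨅ j, (H1res 𝒰 (I j)).ker

/-- `∏ j |V^{I j}|`. -/
noncomputable def invProd (V : Type u) [AddCommGroup V] [DistribMulAction Γ V] : ℕ :=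
  ∏ j, Nat.card (Inv (I j) V)

section Step

variable {V' V V'' : Type u} [AddCommGroup V'] [DistribMulAction Γ V'] [AddCommGroup V]
  [DistribMulAction Γ V] [AddCommGroup V''] [DistribMulAction Γ V'']
  {i : V' →+[Γ] V} {π : V →+[Γ] V''}

omit [Fintype ι] in
theorem mem_SelF {x : H1 𝒰 V} : x ∈ SelF S I V ↔ x ∈ S.cond V ∧ ∀ j, H1res 𝒰 (I j) x = 0 := by
  unfold SelF
  simp only [AddSubgroup.mem_inf, AddSubgroup.mem_iInf, AddMonoidHom.mem_ker]

omit [Fintype ι] in
theorem H1map_mem_SelF (f : V →+[Γ] V') (hV : S.mem V) (hV' : S.mem V') {x : H1 𝒰 V}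
    (hx : x ∈ SelF S I V) : H1map 𝒰 f x ∈ SelF S I V' := by
  rw [mem_SelF] at hx ⊢
  refine ⟨S.push f hV hV' x hx.1, fun j => ?_⟩
  rw [H1res_H1map, hx.2 j, map_zero]

theorem invProd_pos [Finite V] : 0 < invProd I V :=
  Finset.prod_pos fun _ _ => Nat.card_pos

/-- The restriction maps to all the `I j`. -/
def resAll (V : Type u) [AddCommGroup V] [DistribMulAction Γ V] :
    H1 𝒰 V →+ ∀ j, H1 (LevelSets.discrete (I j)) V :=
  AddMonoidHom.pi fun j => H1res 𝒰 (I j)

omit [Fintype ι] in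
@[simp] theorem resAll_apply (x : H1 𝒰 V) (j : ι) : resAll I V x j = H1res 𝒰 (I j) x := rfl

/-- The product of the defect groups. -/
def defectAll (i : V' →+[Γ] V) : AddSubgroup (∀ j, H1 (LevelSets.discrete (I j)) V') :=
  AddSubgroup.pi Set.univ fun j => defect (I j) i

omit [Fintype ι] in
theorem mem_defectAll {y : ∀ j, H1 (LevelSets.discrete (I j)) V'} :
    y ∈ defectAll I i ↔ ∀ j, y j ∈ defect (I j) i := by
  unfold defectAll
  rw [AddSubgroup.mem_pi]
  exact ⟨fun h j => h j (Set.mem_univ j), fun h j _ => h j⟩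

theorem card_defectAll : Nat.card (defectAll I i) = ∏ j, Nat.card (defect (I j) i) := by
  rw [← Nat.card_pi]
  exact Nat.card_congr
    { toFun := fun y j => ⟨y.1 j, (mem_defectAll I).1 y.2 j⟩
      invFun := fun z => ⟨fun j => (z j).1, (mem_defectAll I).2 fun j => (z j).2⟩
      left_inv := fun _ => rfl
      right_inv := fun _ => rfl }

theorem finite_defectAll [Finite V''] (h : ShortExact i π) : Finite (defectAll I i) := by
  have : ∀ j, Finite (defect (I j) i) := fun j => finite_defect (I j) (V := V) h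
  exact Finite.of_injective
    (fun y : defectAll I i => fun j => (⟨y.1 j, (mem_defectAll I).1 y.2 j⟩ : defect (I j) i))
    (fun y y' hyy => Subtype.ext (funext fun j => congrArg Subtype.val (congrFun hyy j)))

/-- `∏ |defect_j| * ∏ |V^{I j}| = ∏ |V'^{I j}| * ∏ |V''^{I j}|`. -/
theorem card_defectAll_mul [Finite V] [Finite V''] (h : ShortExact i π) :
    Nat.card (defectAll I i) * invProd I V = invProd I V' * invProd I V'' := by
  rw [card_defectAll]
  unfold invProd
  rw [← Finset.prod_mul_distrib, ← Finset.prod_mul_distrib]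
  exact Finset.prod_congr rfl fun j _ => card_defect_mul (I j) h

/-- **The one-step inequality for a family of defect subgroups.** -/
theorem selF_step [Finite V] [Finite V''] (h : ShortExact i π) (hsm : IsSmooth 𝒰 V)
    (hV' : S.mem V') (hV : S.mem V) (hV'' : S.mem V'')
    [Finite (SelF S I V')] [Finite (SelF S I V'')] :
    Finite (SelF S I V) ∧
      Nat.card (SelF S I V) * Nat.card (Inv (⊤ : Subgroup Γ) V') * Nat.card (Inv (⊤ : Subgroup Γ) V'')
          * invProd I V
        ≤ Nat.card (SelF S I V') * Nat.card (SelF S I V'') * Nat.card (Inv (⊤ : Subgroup Γ) V)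
          * invProd I V' * invProd I V'' := by
  have := finite_defectAll I (V := V) h
  have hπ : ∀ x ∈ SelF S I V, H1map 𝒰 π x ∈ SelF S I V'' := fun x hx =>
    H1map_mem_SelF S I π hV hV'' hx
  have hiπ : (H1map 𝒰 π).ker = (H1map 𝒰 i).range := by
    ext x
    rw [AddMonoidHom.mem_ker, AddMonoidHom.mem_range]
    constructor
    · intro hx
      exact exists_of_H1map_eq_zero 𝒰 h hsm x hx
    · rintro ⟨y, rfl⟩
      exact H1map_comp_eq_zero 𝒰 h y
  have hker : ∀ x : H1 𝒰 V', H1map 𝒰 i x ∈ SelF S I V → resAll I V' x = 0 → x ∈ SelF S I V' := by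
    intro x hx hx0
    rw [mem_SelF] at hx ⊢
    exact ⟨S.pull i h.inj hV' hV x hx.1, fun j => congrFun hx0 j⟩
  have hT : ∀ x : H1 𝒰 V', H1map 𝒰 i x ∈ SelF S I V → resAll I V' x ∈ defectAll I i := by
    intro x hx
    rw [mem_defectAll]
    intro j
    show H1map (LevelSets.discrete (I j)) (resHom (I j) i) (H1res 𝒰 (I j) x) = 0
    rw [← H1res_H1map]
    exact ((mem_SelF S I).1 hx).2 j
  refine ⟨Count.finite_of_exact_of_defect (H1map 𝒰 i) (H1map 𝒰 π) hiπ (SelF S I V') (SelF S I V)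
    (SelF S I V'') hπ (resAll I V') (defectAll I i) hker hT, ?_⟩
  have hcount := Count.card_mul_le_of_exact_of_defect
    (invMap ⊤ i) (invMap ⊤ π) (delta 𝒰 h hsm) (H1map 𝒰 i) (H1map 𝒰 π)
    (invMap_injective ⊤ h)
    (by
      ext x
      rw [AddMonoidHom.mem_ker, invMap_eq_zero_iff ⊤ h, AddMonoidHom.mem_range])
    (by
      ext a
      rw [AddMonoidHom.mem_ker, delta_eq_zero_iff, AddMonoidHom.mem_range])
    (by
      ext y
      rw [AddMonoidHom.mem_ker, AddMonoidHom.mem_range]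
      constructor
      · intro hy
        exact exists_delta_eq 𝒰 h hsm y hy
      · rintro ⟨a, rfl⟩
        exact H1map_delta 𝒰 h hsm a)
    hiπ (SelF S I V') (SelF S I V) (SelF S I V'') hπ (resAll I V') (defectAll I i) hker hT
  have hdefect := card_defectAll_mul I (V := V) h
  have hpos : 0 < Nat.card (defectAll I i) := Nat.card_pos
  have key := Abstract.step_of_defect (i' := invProd I V') (i'' := invProd I V'') hpos hcount hdefect
  exact key

end Step

/-! ### The bound and the induction -/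

/-- The bound `Finite (SelF V) ∧ |SelF V| * ∏ j |V^{I j}| ≤ |V^Γ| * w`. -/
def SelBoundF (V : Type u) [AddCommGroup V] [DistribMulAction Γ V] (w : ℕ) : Prop :=
  Finite (SelF S I V) ∧
    Nat.card (SelF S I V) * invProd I V ≤ Nat.card (Inv (⊤ : Subgroup Γ) V) * w

theorem SelBoundF.of_shortExact {V' V V'' : Type u} [AddCommGroup V'] [DistribMulAction Γ V']
    [AddCommGroup V] [DistribMulAction Γ V] [AddCommGroup V''] [DistribMulAction Γ V'']
    [Finite V] [Finite V''] {i : V' →+[Γ] V} {π : V →+[Γ] V''} (h : ShortExact i π)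
    (hsm : IsSmooth 𝒰 V) (hV' : S.mem V') (hV : S.mem V) (hV'' : S.mem V'') {w' w'' : ℕ}
    (h' : SelBoundF S I V' w') (h'' : SelBoundF S I V'' w'') : SelBoundF S I V (w' * w'') := by
  have hfin' := h'.1
  have hfin'' := h''.1
  obtain ⟨hfin, hstep⟩ := selF_step S I h hsm hV' hV hV''
  refine ⟨hfin, ?_⟩
  have hpos : 0 < Nat.card (Inv (⊤ : Subgroup Γ) V') * Nat.card (Inv (⊤ : Subgroup Γ) V'') := by
    have : Finite V' := Finite.of_injective _ h.inj
    exact Nat.mul_pos Nat.card_pos Nat.card_pos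
  apply Nat.le_of_mul_le_mul_right _ hpos
  calc Nat.card (SelF S I V) * invProd I V
        * (Nat.card (Inv (⊤ : Subgroup Γ) V') * Nat.card (Inv (⊤ : Subgroup Γ) V''))
      = Nat.card (SelF S I V) * Nat.card (Inv (⊤ : Subgroup Γ) V')
          * Nat.card (Inv (⊤ : Subgroup Γ) V'') * invProd I V := by ring
    _ ≤ Nat.card (SelF S I V') * Nat.card (SelF S I V'') * Nat.card (Inv (⊤ : Subgroup Γ) V)
          * invProd I V' * invProd I V'' := hstep
    _ = (Nat.card (SelF S I V') * invProd I V') * (Nat.card (SelF S I V'') * invProd I V'')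
          * Nat.card (Inv (⊤ : Subgroup Γ) V) := by ring
    _ ≤ (Nat.card (Inv (⊤ : Subgroup Γ) V') * w') * (Nat.card (Inv (⊤ : Subgroup Γ) V'') * w'')
          * Nat.card (Inv (⊤ : Subgroup Γ) V) :=
        Nat.mul_le_mul_right _ (Nat.mul_le_mul h'.2 h''.2)
    _ = Nat.card (Inv (⊤ : Subgroup Γ) V) * (w' * w'')
          * (Nat.card (Inv (⊤ : Subgroup Γ) V') * Nat.card (Inv (⊤ : Subgroup Γ) V'')) := by ring

theorem SelBoundF.mono {V : Type u} [AddCommGroup V] [DistribMulAction Γ V] {w w' : ℕ}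
    (h : SelBoundF S I V w) (hw : w ≤ w') : SelBoundF S I V w' :=
  ⟨h.1, h.2.trans (Nat.mul_le_mul_left _ hw)⟩

/-- Consumer form: `w ≤ ∏ j |V^{I j}|` gives `|SelF V| ≤ |V^Γ|`. -/
theorem SelBoundF.card_le {V : Type u} [AddCommGroup V] [DistribMulAction Γ V] [Finite V] {w : ℕ}
    (h : SelBoundF S I V w) (hw : w ≤ invProd I V) :
    Nat.card (SelF S I V) ≤ Nat.card (Inv (⊤ : Subgroup Γ) V) :=
  Nat.le_of_mul_le_mul_right (h.2.trans (Nat.mul_le_mul_left _ hw)) (invProd_pos I)

/-- **The Selmer inequality from its simple objects, family version.** -/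
theorem selF_bound_of_simple
    (ω : ∀ (V : Type u) [AddCommGroup V] [DistribMulAction Γ V], ℕ)
    (hclosed : ∀ (V : Type u) [AddCommGroup V] [DistribMulAction Γ V] (T : StableSub Γ V),
      S.mem V → S.mem T.W ∧ S.mem (V ⧸ T.W))
    (hω : ∀ (V : Type u) [AddCommGroup V] [DistribMulAction Γ V] [Finite V] (T : StableSub Γ V),
      S.mem V → ω T.W * ω (V ⧸ T.W) ≤ ω V)
    (hbase : ∀ (V : Type u) [AddCommGroup V] [DistribMulAction Γ V] [Finite V],
      IsSmooth 𝒰 V → S.mem V → IsSimpleOrZero Γ V → SelBoundF S I V (ω V))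
    (V : Type u) [AddCommGroup V] [DistribMulAction Γ V] [Finite V]
    (hsm : IsSmooth 𝒰 V) (hV : S.mem V) : SelBoundF S I V (ω V) := by
  suffices H : ∀ (n : ℕ) (V : Type u) [AddCommGroup V] [DistribMulAction Γ V] [Finite V],
      Nat.card V ≤ n → IsSmooth 𝒰 V → S.mem V → SelBoundF S I V (ω V) from
    H (Nat.card V) V le_rfl hsm hV
  intro n
  induction n with
  | zero =>
    intro V _ _ _ hn
    exact absurd (Nat.le_zero.1 hn) (Nat.card_pos).ne'
  | succ n ih =>
    intro V _ _ _ hn hsm hV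
    by_cases hs : IsSimpleOrZero Γ V
    · exact hbase V hsm hV hs
    · unfold IsSimpleOrZero at hs
      rw [not_forall] at hs
      obtain ⟨T, hT⟩ := hs
      rw [not_or] at hT
      obtain ⟨hbot, htop⟩ := hT
      have hcardV : Nat.card V = Nat.card T.W * Nat.card (V ⧸ T.W) := by
        rw [mul_comm]
        exact AddSubgroup.card_eq_card_quotient_mul_card_addSubgroup T.W
      have hW1 : 1 < Nat.card T.W := by
        rw [Finite.one_lt_card_iff_nontrivial]
        exact (AddSubgroup.nontrivial_iff_ne_bot T.W).2 hbot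
      have hQ1 : 1 < Nat.card (V ⧸ T.W) := by
        rw [Finite.one_lt_card_iff_nontrivial]
        by_contra hnt
        rw [not_nontrivial_iff_subsingleton] at hnt
        exact htop (QuotientAddGroup.subsingleton_iff.1 hnt)
      have hWlt : Nat.card T.W ≤ n := by
        have : Nat.card T.W * 2 ≤ Nat.card T.W * Nat.card (V ⧸ T.W) :=
          Nat.mul_le_mul_left _ hQ1
        omega
      have hQlt : Nat.card (V ⧸ T.W) ≤ n := by
        have : 2 * Nat.card (V ⧸ T.W) ≤ Nat.card T.W * Nat.card (V ⧸ T.W) :=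
          Nat.mul_le_mul_right _ hW1
        omega
      obtain ⟨hmW, hmQ⟩ := hclosed V T hV
      have bW := ih T.W hWlt (T.isSmooth_sub 𝒰 hsm) hmW
      have bQ := ih (V ⧸ T.W) hQlt (T.isSmooth_quot 𝒰 hsm) hmQ
      exact (SelBoundF.of_shortExact S I T.shortExact hsm hmW hV hmQ bW bQ).mono S I (hω V T hV)

/-- **Uniform consumer form** (two defect subgroups `I₁ = I_p`, `I₂ = ⟨c_∞⟩`, weight `|V|`): if every simple
object `W` of the class satisfies `SelBoundF W |W|`, then every finite smooth `G` of the class with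
`|G| ≤ |G^{I₁}|²` and `|G| ≤ |G^{I₂}|²` has `|SelF G| ≤ |G^Γ|`. -/
theorem selF_card_le_of_two (I₁ I₂ : Subgroup Γ)
    (hclosed : ∀ (V : Type u) [AddCommGroup V] [DistribMulAction Γ V] (T : StableSub Γ V),
      S.mem V → S.mem T.W ∧ S.mem (V ⧸ T.W))
    (hbase : ∀ (V : Type u) [AddCommGroup V] [DistribMulAction Γ V] [Finite V],
      IsSmooth 𝒰 V → S.mem V → IsSimpleOrZero Γ V → SelBoundF S ![I₁, I₂] V (Nat.card V))
    (G : Type u) [AddCommGroup G] [DistribMulAction Γ G] [Finite G]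
    (hsm : IsSmooth 𝒰 G) (hG : S.mem G)
    (h1 : Nat.card G ≤ Nat.card (Inv I₁ G) ^ 2) (h2 : Nat.card G ≤ Nat.card (Inv I₂ G) ^ 2) :
    Finite (SelF S ![I₁, I₂] G) ∧
      Nat.card (SelF S ![I₁, I₂] G) ≤ Nat.card (Inv (⊤ : Subgroup Γ) G) := by
  have hb := selF_bound_of_simple S ![I₁, I₂] (fun V _ _ => Nat.card V) hclosed
    (fun V _ _ _ T _ => by
      rw [mul_comm]
      exact (AddSubgroup.card_eq_card_quotient_mul_card_addSubgroup T.W).ge)
    hbase G hsm hG
  refine ⟨hb.1, hb.card_le S _ ?_⟩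
  have hprod : invProd ![I₁, I₂] G = Nat.card (Inv I₁ G) * Nat.card (Inv I₂ G) := by
    unfold invProd
    rw [Fin.prod_univ_two]
    rfl
  rw [hprod]
  have hsq : Nat.card G ^ 2 ≤ (Nat.card (Inv I₁ G) * Nat.card (Inv I₂ G)) ^ 2 := by
    rw [mul_pow, sq (Nat.card G)]
    exact Nat.mul_le_mul h1 h2
  exact (Nat.pow_le_pow_iff_left (two_ne_zero)).1 hsq

end Fermat.Agent.MAZ.SelCoh42
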