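/-
Programme MAZ (S15), Selmer core (helper42): **the class of modules on which every `(g - 1)(g - χ g)` is
nilpotent, and its simple objects.**

For a `Γ`-module `V` and `a : ℕ`, `quadOp V a g = (g - 1)(g - a)` in the ring `AddMonoid.End V`.  For a
character `χ : Γ →* (ℤ/r)ˣ`, `NilQuad χ V` says that `quadOp V (χ g).val g` is nilpotent for every `g`.

* `NilQuad` passes to `Γ`-stable subgroups and their quotients (`NilQuad.of_injective`,
  `NilQuad.of_surjective`, `NilQuad.sub_quot`): contrary to the relation `(g - 1)(g - χ g) = 0` it also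
  holds on the modules `J₀(p)[r^k]_𝔪` themselves, where `(g - 1)(g - χ g) = η_q g + r (…)` for
  `g = Frob_q` with `η_q = T_q - 1 - q` and `r` nilpotent (`isNilpotent_quadOp_of_relation`), so no
  Jordan–Hölder bookkeeping is needed.
* `simple_of_nilQuad` : a finite `Γ`-module of `r`-power order, without proper nonzero stable subgroups,
  in the class `NilQuad χ`, is zero or of order `r` with `Γ` acting trivially or through `χ`.
  (Proof: it is killed by `r`; `ker χ` acts unipotently, hence through an `r`-group, hence trivially;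
  then every `g` has `g^(r-1) = 1`, so it acts semisimply and the nilpotent `(g - 1)(g - χ g)` vanishes;
  conclude with `Simple14.simple_of_two_char`.)
-/
import Fermat.Agent.MAZ.Simple14.Simple
import Fermat.Agent.MAZ.SelCoh42.Simple

set_option autoImplicit false
set_option linter.style.haveILetI false

namespace Fermat.Agent.MAZ.SelCoh42

universe u v

section Ops

variable {Γ : Type v} [Group Γ]

/-- The action of `g`, as an element of the ring `AddMonoid.End V`. -/
def actEnd (V : Type u) [AddCommGroup V] [DistribMulAction Γ V] (g : Γ) : AddMonoid.End V :=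
  DistribMulAction.toAddMonoidEnd Γ V g

/-- `(g - 1)(g - a)` in the ring `AddMonoid.End V`. -/
def quadOp (V : Type u) [AddCommGroup V] [DistribMulAction Γ V] (a : ℕ) (g : Γ) : AddMonoid.End V :=
  (actEnd V g - 1) * (actEnd V g - (a : AddMonoid.End V))

variable {V : Type u} [AddCommGroup V] [DistribMulAction Γ V]

@[simp] theorem actEnd_apply (g : Γ) (x : V) : actEnd V g x = g • x := rfl

theorem end_mul_apply (A B : AddMonoid.End V) (x : V) : (A * B) x = A (B x) := rfl

theorem end_sub_apply (A B : AddMonoid.End V) (x : V) : (A - B) x = A x - B x := rfl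

theorem end_one_apply (x : V) : (1 : AddMonoid.End V) x = x := rfl

theorem end_pow_succ_apply (A : AddMonoid.End V) (n : ℕ) (x : V) : (A ^ (n + 1)) x = (A ^ n) (A x) := by
  rw [pow_succ]
  rfl

theorem quadOp_apply (a : ℕ) (g : Γ) (x : V) :
    quadOp V a g x = g • (g • x - a • x) - (g • x - a • x) := rfl

theorem quadOp_apply' (a : ℕ) (g : Γ) (x : V) :
    quadOp V a g x = g • g • x - (1 + a) • g • x + a • x := by
  rw [quadOp_apply, smul_sub, smul_comm g a x, add_smul, one_smul]
  abel

variable {V' : Type u} [AddCommGroup V'] [DistribMulAction Γ V']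

theorem quadOp_map (f : V →+[Γ] V') (a : ℕ) (g : Γ) (x : V) :
    f (quadOp V a g x) = quadOp V' a g (f x) := by
  rw [quadOp_apply, quadOp_apply, map_sub, map_smul, map_sub, map_smul, map_nsmul]

theorem quadOp_pow_map (f : V →+[Γ] V') (a : ℕ) (g : Γ) (n : ℕ) (x : V) :
    f ((quadOp V a g ^ n) x) = (quadOp V' a g ^ n) (f x) := by
  induction n generalizing x with
  | zero => rfl
  | succ n ih => rw [end_pow_succ_apply, end_pow_succ_apply, ih, quadOp_map]

theorem isNilpotent_quadOp_of_injective (f : V →+[Γ] V') (hf : Function.Injective f) (a : ℕ) (g : Γ)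
    (h : IsNilpotent (quadOp V' a g)) : IsNilpotent (quadOp V a g) := by
  obtain ⟨n, hn⟩ := h
  refine ⟨n, ?_⟩
  ext x
  apply hf
  rw [quadOp_pow_map, hn]
  exact (map_zero f).symm

theorem isNilpotent_quadOp_of_surjective (f : V →+[Γ] V') (hf : Function.Surjective f) (a : ℕ) (g : Γ)
    (h : IsNilpotent (quadOp V a g)) : IsNilpotent (quadOp V' a g) := by
  obtain ⟨n, hn⟩ := h
  refine ⟨n, ?_⟩
  ext y
  obtain ⟨x, rfl⟩ := hf y
  rw [← quadOp_pow_map, hn]
  exact map_zero f

/-- Changing `a` by a multiple of a nilpotent integer does not affect nilpotency, and a relation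
`g² - t g + q = 0` with `t - (1 + q)` nilpotent and commuting with `g` gives nilpotency of
`(g - 1)(g - a)` for `a ≡ q` modulo a nilpotent integer `r`.  This is the form in which Eichler–Shimura
enters: `t = T_q`, `g = Frob_q`. -/
theorem isNilpotent_quadOp_of_relation (r : ℕ) (hr : IsNilpotent ((r : ℕ) : AddMonoid.End V))
    (g : Γ) (a q : ℕ) (haq : (a : ZMod r) = (q : ZMod r)) (η : AddMonoid.End V)
    (hη : IsNilpotent η) (hcomm : Commute η (actEnd V g))
    (hrel : actEnd V g * actEnd V g - (η + 1 + (q : AddMonoid.End V)) * actEnd V g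
      + (q : AddMonoid.End V) = 0) :
    IsNilpotent (quadOp V a g) := by
  set G := actEnd V g with hG
  -- `a = q + r * d` in `End V` for an integer `d`
  obtain ⟨d, hd⟩ : ∃ d : ℤ, (a : ℤ) = q + r * d := by
    have h1 : ((a : ℤ) : ZMod r) = ((q : ℤ) : ZMod r) := by
      rw [Int.cast_natCast, Int.cast_natCast, haq]
    have h2 := (ZMod.intCast_eq_intCast_iff_dvd_sub _ _ r).1 h1
    obtain ⟨d, hd⟩ := h2
    exact ⟨-d, by linarith⟩
  have haE : (a : AddMonoid.End V) = (q : AddMonoid.End V) + (r : AddMonoid.End V) * (d : AddMonoid.End V) := by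
    have := congrArg (Int.cast : ℤ → AddMonoid.End V) hd
    push_cast at this
    exact this
  have hdc : ∀ X : AddMonoid.End V, Commute ((r : AddMonoid.End V) * (d : AddMonoid.End V)) X := fun X =>
    (Commute.mul_left (Nat.cast_commute r X) (Int.cast_commute d X))
  -- `(G - 1)(G - a) = η G - r d (G - 1)`
  have key : quadOp V a g = η * G - ((r : AddMonoid.End V) * (d : AddMonoid.End V)) * (G - 1) := by
    unfold quadOp
    rw [← hG, haE]
    have h0 : G * G = (η + 1 + (q : AddMonoid.End V)) * G - (q : AddMonoid.End V) := by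
      rw [← sub_eq_zero, ← hrel]
      abel
    have hqc : (q : AddMonoid.End V) * G = G * (q : AddMonoid.End V) := (Nat.cast_commute q G).eq
    have hrdc : ((r : AddMonoid.End V) * (d : AddMonoid.End V)) * G
        = G * ((r : AddMonoid.End V) * (d : AddMonoid.End V)) := (hdc G).eq
    calc (G - 1) * (G - ((q : AddMonoid.End V) + (r : AddMonoid.End V) * (d : AddMonoid.End V)))
        = G * G - G * (q : AddMonoid.End V) - G * ((r : AddMonoid.End V) * (d : AddMonoid.End V))
          - G + (q : AddMonoid.End V) + (r : AddMonoid.End V) * (d : AddMonoid.End V) := by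
          noncomm_ring
      _ = η * G - ((r : AddMonoid.End V) * (d : AddMonoid.End V)) * (G - 1) := by
          rw [h0, ← hqc, ← hrdc]
          noncomm_ring
  rw [key]
  have h1 : IsNilpotent (η * G) := hcomm.isNilpotent_mul_right hη
  have h2 : IsNilpotent (((r : AddMonoid.End V) * (d : AddMonoid.End V)) * (G - 1)) := by
    have hrd : IsNilpotent ((r : AddMonoid.End V) * (d : AddMonoid.End V)) :=
      (Nat.cast_commute r _).isNilpotent_mul_right hr
    exact (hdc (G - 1)).isNilpotent_mul_right hrd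
  refine Commute.isNilpotent_sub ?_ h1 h2
  have hc1 : Commute (η * G) (G - 1) :=
    Commute.sub_right (Commute.mul_left hcomm (Commute.refl G)) (Commute.one_right _)
  exact Commute.mul_right ((hdc (η * G)).symm) hc1

end Ops

section Class

variable {Γ : Type v} [Group Γ] {r : ℕ}

/-- The class of `Γ`-modules on which every `(g - 1)(g - χ g)` is nilpotent. -/
def NilQuad (χ : Γ →* (ZMod r)ˣ) (V : Type u) [AddCommGroup V] [DistribMulAction Γ V] : Prop :=
  ∀ g : Γ, IsNilpotent (quadOp V ((χ g : (ZMod r)ˣ) : ZMod r).val g)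

variable {χ : Γ →* (ZMod r)ˣ} {V : Type u} [AddCommGroup V] [DistribMulAction Γ V]
  {V' : Type u} [AddCommGroup V'] [DistribMulAction Γ V']

theorem NilQuad.of_injective (f : V →+[Γ] V') (hf : Function.Injective f) (h : NilQuad χ V') :
    NilQuad χ V := fun g => isNilpotent_quadOp_of_injective f hf _ g (h g)

theorem NilQuad.of_surjective (f : V →+[Γ] V') (hf : Function.Surjective f) (h : NilQuad χ V) :
    NilQuad χ V' := fun g => isNilpotent_quadOp_of_surjective f hf _ g (h g)

theorem NilQuad.sub_quot (T : StableSub Γ V) (h : NilQuad χ V) :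
    NilQuad χ T.W ∧ NilQuad χ (V ⧸ T.W) :=
  ⟨h.of_injective T.incl T.shortExact.inj, h.of_surjective T.proj T.shortExact.surj⟩

end Class

section Simple

open Polynomial

variable {Γ : Type v} [Group Γ] {r : ℕ} [Fact r.Prime] (χ : Γ →* (ZMod r)ˣ)
  {V : Type u} [AddCommGroup V] [DistribMulAction Γ V] [Finite V]

omit [Fact r.Prime] [Finite V] in
/-- A simple-or-zero module of `r`-power order is killed by `r`. -/
theorem nsmul_prime_eq_zero_of_simple (hrk : ∃ k, ∀ x : V, r ^ k • x = 0)
    (hsimple : ∀ W : AddSubgroup V, (∀ (g : Γ) (x : V), x ∈ W → g • x ∈ W) → W = ⊥ ∨ W = ⊤)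
    (x : V) : r • x = 0 := by
  let W : AddSubgroup V := (nsmulAddMonoidHom (α := V) r).range
  have hW : ∀ (g : Γ) (x : V), x ∈ W → g • x ∈ W := by
    rintro g _ ⟨y, rfl⟩
    refine ⟨g • y, ?_⟩
    show r • (g • y) = g • (r • y)
    rw [smul_comm]
  rcases hsimple W hW with h | h
  · have hx : r • x ∈ W := ⟨x, rfl⟩
    rw [h] at hx
    exact AddSubgroup.mem_bot.1 hx
  · obtain ⟨k, hk⟩ := hrk
    have hdiv : ∀ n : ℕ, ∀ x : V, ∃ y : V, r ^ n • y = x := by
      intro n
      induction n with
      | zero => exact fun x => ⟨x, by rw [pow_zero, one_smul]⟩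
      | succ n ih =>
        intro x
        obtain ⟨y, rfl⟩ := ih x
        have hy : y ∈ W := h ▸ AddSubgroup.mem_top y
        obtain ⟨z, rfl⟩ := hy
        refine ⟨z, ?_⟩
        rw [pow_succ, mul_smul]
        rfl
    obtain ⟨y, rfl⟩ := hdiv k x
    rw [smul_comm, hk]

omit [Finite V] in
/-- If `ker χ` acts trivially on the finite `𝔽_r`-vector space `V`, every `g` acts semisimply
(`g^(r-1) = 1`), so a nilpotent `(g - 1)(g - χ g)` vanishes. -/
theorem quadOp_eq_zero_of_ker_trivial [Module (ZMod r) V] [Finite V]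
    (hker : ∀ h ∈ χ.ker, ∀ x : V, h • x = x) (g : Γ)
    (hnil : IsNilpotent (quadOp V ((χ g : (ZMod r)ˣ) : ZMod r).val g)) (x : V) :
    quadOp V ((χ g : (ZMod r)ˣ) : ZMod r).val g x = 0 := by
  have hrp : r.Prime := Fact.out
  set a : ZMod r := ((χ g : (ZMod r)ˣ) : ZMod r) with ha
  let f : Module.End (ZMod r) V := Simple14.actLin g
  have hfpow : ∀ (n : ℕ) (x : V), (f ^ n) x = g ^ n • x := by
    intro n
    induction n with
    | zero => intro x; simp
    | succ n ih =>
      intro x
      rw [pow_succ, Module.End.mul_apply, ih, pow_succ, mul_smul]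
      rfl
  have hf1 : f ^ (r - 1) = 1 := by
    refine LinearMap.ext fun x => ?_
    rw [hfpow]
    exact hker _ (by rw [MonoidHom.mem_ker, map_pow, ZMod.units_pow_card_sub_one_eq_one]) x
  have hne1 : ((r - 1 : ℕ) : ZMod r) ≠ 0 := by
    rw [Ne, ZMod.natCast_eq_zero_iff]
    exact Nat.not_dvd_of_pos_of_lt (Nat.sub_pos_of_lt hrp.one_lt) (Nat.sub_lt hrp.pos one_pos)
  have hss : f.IsSemisimple := by
    apply Module.End.isSemisimple_of_squarefree_aeval_eq_zero
      (p := (X ^ (r - 1) - C (1 : ZMod r)))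
    · exact (Polynomial.separable_X_pow_sub_C (1 : ZMod r) hne1 one_ne_zero).squarefree
    · rw [map_sub, map_pow, aeval_X, aeval_C, hf1, map_one, sub_self]
  let Q : Module.End (ZMod r) V := aeval f ((X - C (1 : ZMod r)) * (X - C a))
  have hQss : Q.IsSemisimple := hss.aeval _
  have hval : ∀ x : V, a • x = a.val • x := fun x => by
    conv_lhs => rw [← ZMod.natCast_zmod_val a]
    exact Nat.cast_smul_eq_nsmul (ZMod r) _ _
  have hQapply : ∀ x : V, Q x = quadOp V a.val g x := by
    intro x
    show (aeval f ((X - C (1 : ZMod r)) * (X - C a))) x = _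
    rw [map_mul, map_sub, map_sub, aeval_X, aeval_C, aeval_C, map_one, quadOp_apply,
      Module.End.mul_apply, LinearMap.sub_apply, LinearMap.sub_apply, Module.End.one_apply,
      Module.algebraMap_end_apply, hval]
    rfl
  have hQpow : ∀ (n : ℕ) (x : V), (Q ^ n) x = (quadOp V a.val g ^ n) x := by
    intro n
    induction n with
    | zero => intro x; rfl
    | succ n ih =>
      intro x
      rw [pow_succ, Module.End.mul_apply, ih, hQapply, end_pow_succ_apply]
  have hQnil : IsNilpotent Q := by
    obtain ⟨n, hn⟩ := hnil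
    refine ⟨n, LinearMap.ext fun x => ?_⟩
    rw [hQpow, hn]
    rfl
  have hQ0 : Q = 0 := Module.End.eq_zero_of_isNilpotent_isSemisimple hQnil hQss
  rw [← hQapply, hQ0]
  rfl

/-- **Simple objects of the class `NilQuad χ`.** -/
theorem simple_of_nilQuad (hrk : ∃ k, ∀ x : V, r ^ k • x = 0)
    (hsimple : ∀ W : AddSubgroup V, (∀ (g : Γ) (x : V), x ∈ W → g • x ∈ W) → W = ⊥ ∨ W = ⊤)
    (hnil : NilQuad χ V) :
    Subsingleton V ∨ (Nat.card V = r ∧ ∀ (g : Γ) (x : V), g • x = x) ∨
      (Nat.card V = r ∧ ∀ (g : Γ) (x : V), g • x = ((χ g : (ZMod r)ˣ) : ZMod r).val • x) := by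
  classical
  have hrp : r.Prime := Fact.out
  have : Fact (1 < r) := ⟨hrp.one_lt⟩
  have hr : ∀ x : V, r • x = 0 := nsmul_prime_eq_zero_of_simple hrk hsimple
  rcases subsingleton_or_nontrivial V with hs | hnt
  · exact Or.inl hs
  letI : Module (ZMod r) V := AddCommGroup.zmodModule hr
  have hrE : ((r : ℕ) : AddMonoid.End V) = 0 := by
    ext x
    exact hr x
  -- elements of `ker χ` have `r`-power order on `V`
  have hpow : ∀ h ∈ χ.ker, ∃ m : ℕ, ∀ x : V, h ^ (r ^ m) • x = x := by
    intro h hh
    have hχ : ((χ h : (ZMod r)ˣ) : ZMod r).val = 1 := by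
      rw [MonoidHom.mem_ker.1 hh, Units.val_one, ZMod.val_one]
    obtain ⟨n, hn⟩ := hnil h
    rw [hχ] at hn
    have hq : quadOp V 1 h = (actEnd V h - 1) ^ 2 := by
      unfold quadOp
      rw [Nat.cast_one, sq]
    have h2 : (actEnd V h - 1) ^ (2 * n) = 0 := by
      rw [pow_mul, ← hq, hn]
    obtain ⟨m, hm⟩ : ∃ m, 2 * n ≤ r ^ m := ⟨2 * n, (Nat.lt_pow_self hrp.one_lt).le⟩
    have h3 : (actEnd V h - 1) ^ (r ^ m) = 0 := pow_eq_zero_of_le hm h2
    have h4 : actEnd V h ^ (r ^ m) = 1 := by
      have hc : Commute (actEnd V h - 1) 1 := Commute.one_right _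
      have h5 := hc.add_pow_prime_pow_eq hrp m
      rw [sub_add_cancel, h3, one_pow, hrE, zero_mul, zero_mul, zero_mul, zero_add, add_zero] at h5
      exact h5
    refine ⟨m, fun x => ?_⟩
    have h6 : (actEnd V h ^ (r ^ m)) x = x := by
      rw [h4]
      rfl
    unfold actEnd at h6
    rwa [← map_pow] at h6
  -- hence `ker χ` has a nonzero fixed vector
  let P : Subgroup (Equiv.Perm V) := χ.ker.map (MulAction.toPermHom Γ V)
  have hP : IsPGroup r P := by
    rintro ⟨σ, h, hh, rfl⟩
    obtain ⟨m, hm⟩ := hpow h hh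
    refine ⟨m, Subtype.ext ?_⟩
    rw [Subgroup.coe_pow, Subgroup.coe_one, ← map_pow]
    ext v
    exact hm v
  have h0 : (0 : V) ∈ MulAction.fixedPoints P V := by
    rintro ⟨σ, h, hh, rfl⟩
    exact smul_zero h
  obtain ⟨w, hw, hne⟩ := hP.exists_fixed_point_of_prime_dvd_card_of_fixed_point V
    Simple14.prime_dvd_natCard h0
  -- so `ker χ` acts trivially
  let F : AddSubgroup V :=
    { carrier := {x | ∀ h ∈ χ.ker, h • x = x}
      zero_mem' := fun h _ => smul_zero h
      add_mem' := fun {a b} ha hb h hh => by rw [smul_add, ha h hh, hb h hh]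
      neg_mem' := fun {a} ha h hh => by rw [smul_neg, ha h hh] }
  have hF : ∀ (g : Γ) (x : V), x ∈ F → g • x ∈ F := by
    intro g x hx h hh
    have hconj : g⁻¹ * h * g ∈ χ.ker := by
      rw [MonoidHom.mem_ker, map_mul, map_mul, MonoidHom.mem_ker.mp hh, mul_one, map_inv,
        inv_mul_cancel]
    calc h • (g • x) = g • ((g⁻¹ * h * g) • x) := by
          rw [← mul_smul, ← mul_smul, mul_assoc, mul_inv_cancel_left]
      _ = g • x := by rw [hx _ hconj]
  have hker : ∀ h ∈ χ.ker, ∀ x : V, h • x = x := by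
    rcases hsimple F hF with hb | ht
    · exfalso
      have hwF : w ∈ F := fun h hh => hw ⟨MulAction.toPermHom Γ V h, h, hh, rfl⟩
      rw [hb] at hwF
      exact hne (AddSubgroup.mem_bot.1 hwF).symm
    · intro h hh x
      have hx : x ∈ F := ht ▸ AddSubgroup.mem_top x
      exact hx h hh
  -- every `g` is semisimple, so the nilpotent `(g - 1)(g - χ g)` vanishes
  have hpoly : ∀ (g : Γ) (x : V), g • g • x - (1 + ((χ g : (ZMod r)ˣ) : ZMod r).val) • g • x +
      ((χ g : (ZMod r)ˣ) : ZMod r).val • x = 0 := by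
    intro g x
    rw [← quadOp_apply']
    exact quadOp_eq_zero_of_ker_trivial χ hker g (hnil g) x
  rcases Simple14.simple_of_two_char χ hr hsimple hpoly with h | h
  · exact Or.inl h
  · exact Or.inr h

end Simple

end Fermat.Agent.MAZ.SelCoh42
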