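/-
Programme MAZ (S15), brick F-INEQ, part (c) (helper42): **the Selmer inequality (INEQ) for level
cohomology**, by instantiating helper5's abstract induction (`SelIneq5/Abstract.lean`) with the one-step
inequality `sel_step` of `SelCoh42/Sel.lean`.

`SelObj S I` : bundled finite smooth `Γ`-modules in the class of the Selmer system `S` with finite Selmer
group.  `selCount S I : SelCount (SelObj S I)` (`card = |V|`, `h0 = |V^Γ|`, `hI = |V^I|`, `hS = |Sel V|`,
`Ext` = existence of a short exact sequence).  Then for an object built from "trivial" and "cyclotomic"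
pieces with `a` trivial pieces (`Abstract.Built`):

  `sel_ineq` : `|Sel V| * r ^ a * |V^I| ≤ |V^Γ| * |V|`
  `sel_le`   : `|V| = r^ℓ`, `r^i ≤ |V^I|`, `ℓ ≤ a + i + c`  ⇒  `|Sel V| ≤ |V^Γ| * r^c`.

`SelObj.ofExact` builds the middle object of a short exact sequence (finiteness of its Selmer group is part
of `sel_step`).  Mathlib only.
-/
import Fermat.Agent.MAZ.SelCoh42.Sel

set_option autoImplicit false

namespace Fermat.Agent.MAZ.SelCoh42

universe u v

open Fermat.Agent.MAZ.SelIneq5

variable {Γ : Type v} [Group Γ] {𝒰 : LevelSets Γ} (S : SelmerSystem.{u} 𝒰) (I : Subgroup Γ)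

/-- Bundled finite smooth modules of the class with finite Selmer group. -/
structure SelObj where
  /-- the underlying module -/
  V : Type u
  [acg : AddCommGroup V]
  [act : DistribMulAction Γ V]
  [fin : Finite V]
  smooth : IsSmooth 𝒰 V
  mem : S.mem V
  finSel : Finite (Sel I S V)

attribute [instance] SelObj.acg SelObj.act SelObj.fin SelObj.finSel

variable {S I}

/-- `|V| = |V'| * |V''|` for a short exact sequence. -/
theorem card_eq_mul_of_shortExact {V' V V'' : Type u} [AddCommGroup V'] [DistribMulAction Γ V']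
    [AddCommGroup V] [DistribMulAction Γ V] [AddCommGroup V''] [DistribMulAction Γ V'']
    {i : V' →+[Γ] V} {π : V →+[Γ] V''} (h : ShortExact i π) :
    Nat.card V = Nat.card V' * Nat.card V'' := by
  have h1 := Count.card_ker_mul_card_range (π : V →+ V'')
  have h2 : Nat.card (π : V →+ V'').range = Nat.card V'' := by
    have : (π : V →+ V'').range = ⊤ := AddMonoidHom.range_eq_top.2 h.surj
    rw [this]
    exact Nat.card_congr AddSubgroup.topEquiv.toEquiv
  have h3 : Nat.card (π : V →+ V'').ker = Nat.card V' := by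
    refine (Nat.card_congr (Equiv.ofBijective
      (fun y : V' => (⟨i y, h.comp_apply y⟩ : (π : V →+ V'').ker)) ⟨?_, ?_⟩)).symm
    · intro y y' hyy
      exact h.inj (congrArg Subtype.val hyy)
    · rintro ⟨x, hx⟩
      obtain ⟨y, rfl⟩ := (h.exact x).1 hx
      exact ⟨y, rfl⟩
  rw [← h1, h2, h3]

variable (S I) in
/-- The numerical Selmer data of level cohomology, in the sense of `SelIneq5/Abstract.lean`. -/
noncomputable def selCount : Abstract.SelCount (SelObj S I) where
  card G := Nat.card G.V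
  h0 G := Nat.card (Inv (⊤ : Subgroup Γ) G.V)
  hI G := Nat.card (Inv I G.V)
  hS G := Nat.card (Sel I S G.V)
  Ext G' G G'' := ∃ (i : G'.V →+[Γ] G.V) (π : G.V →+[Γ] G''.V), ShortExact i π
  card_pos _ := Nat.card_pos
  h0_pos _ := Nat.card_pos
  hI_pos _ := Nat.card_pos
  card_ext := by
    rintro G' G G'' ⟨i, π, h⟩
    exact card_eq_mul_of_shortExact h
  step := by
    rintro G' G G'' ⟨i, π, h⟩
    exact (sel_step I S h G.smooth G'.mem G.mem G''.mem).2

/-- The middle term of a short exact sequence of objects is an object. -/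
def SelObj.ofExact (G' G'' : SelObj S I) (V : Type u) [AddCommGroup V] [DistribMulAction Γ V]
    [Finite V] (hsm : IsSmooth 𝒰 V) (hmem : S.mem V) (i : G'.V →+[Γ] V) (π : V →+[Γ] G''.V)
    (h : ShortExact i π) : SelObj S I where
  V := V
  smooth := hsm
  mem := hmem
  finSel := (sel_step I S h hsm G'.mem hmem G''.mem).1

/-- **(INEQ) for level cohomology**: `|Sel V| * r ^ a * |V^I| ≤ |V^Γ| * |V|` for an object built from
trivial and cyclotomic pieces, `a` of them trivial, given the two base cases. -/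
theorem sel_ineq (r : ℕ) {triv cyc : SelObj S I → Prop}
    (htriv : ∀ G, triv G → Nat.card (Sel I S G.V) * r * Nat.card (Inv I G.V)
      ≤ Nat.card (Inv (⊤ : Subgroup Γ) G.V) * Nat.card G.V)
    (hcyc : ∀ G, cyc G → Nat.card (Sel I S G.V) * Nat.card (Inv I G.V)
      ≤ Nat.card (Inv (⊤ : Subgroup Γ) G.V) * Nat.card G.V)
    {a : ℕ} {G : SelObj S I} (hG : Abstract.Built (selCount S I) triv cyc a G) :
    Nat.card (Sel I S G.V) * r ^ a * Nat.card (Inv I G.V)
      ≤ Nat.card (Inv (⊤ : Subgroup Γ) G.V) * Nat.card G.V :=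
  Abstract.ineq (selCount S I) r htriv hcyc hG

/-- **The Selmer bound consumed by (SEL)**: `|V| = r^ℓ`, `|V^I| ≥ r^i`, `a` trivial pieces and
`ℓ ≤ a + i + c` give `|Sel V| ≤ |V^Γ| * r^c`. -/
theorem sel_le (r : ℕ) (hr : 0 < r) {triv cyc : SelObj S I → Prop}
    (htriv : ∀ G, triv G → Nat.card (Sel I S G.V) * r * Nat.card (Inv I G.V)
      ≤ Nat.card (Inv (⊤ : Subgroup Γ) G.V) * Nat.card G.V)
    (hcyc : ∀ G, cyc G → Nat.card (Sel I S G.V) * Nat.card (Inv I G.V)
      ≤ Nat.card (Inv (⊤ : Subgroup Γ) G.V) * Nat.card G.V)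
    {a : ℕ} {G : SelObj S I} (hG : Abstract.Built (selCount S I) triv cyc a G) {ℓ i c : ℕ}
    (hcard : Nat.card G.V = r ^ ℓ) (hI : r ^ i ≤ Nat.card (Inv I G.V)) (hℓ : ℓ ≤ a + i + c) :
    Nat.card (Sel I S G.V) ≤ Nat.card (Inv (⊤ : Subgroup Γ) G.V) * r ^ c :=
  Abstract.hS_le (selCount S I) r hr htriv hcyc hG hcard hI hℓ

end Fermat.Agent.MAZ.SelCoh42
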