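/-
Programme MAZ (S15), Selmer core (helper42): **the trivial module** — the `k = 0` edge of S-FIN
(`G_0 = J₀(p)[r^0]_m = 0`, while `SSelInst97.card_selF_le_final` needs `r ∣ N = r^k`).

For a subsingleton module `V`: `H¹(Γ, V)` is a subsingleton, hence every Selmer group `SelF S I V` is finite
of cardinality `1 = |V^Γ|`.
-/
import Fermat.Agent.MAZ.SelCoh42.Fam

set_option autoImplicit false

namespace Fermat.Agent.MAZ.SelCoh42

universe u v

variable {Γ : Type v} [Group Γ] (𝒰 : LevelSets Γ)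

instance subsingleton_Z1 (V : Type u) [AddCommGroup V] [DistribMulAction Γ V] [Subsingleton V] :
    Subsingleton (Z1 𝒰 V) :=
  ⟨fun _ _ => Subtype.ext (funext fun _ => Subsingleton.elim _ _)⟩

instance subsingleton_H1 (V : Type u) [AddCommGroup V] [DistribMulAction Γ V] [Subsingleton V] :
    Subsingleton (H1 𝒰 V) :=
  ⟨fun x y => by
    obtain ⟨c, rfl⟩ := H1mk_surjective 𝒰 x
    obtain ⟨c', rfl⟩ := H1mk_surjective 𝒰 y
    rw [Subsingleton.elim c c']⟩

variable {𝒰}

/-- **`k = 0` edge**: the Selmer bound for the trivial module. -/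
theorem selF_card_le_of_subsingleton {ι : Type} [Fintype ι] (S : SelmerSystem.{u} 𝒰)
    (I : ι → Subgroup Γ) (V : Type u) [AddCommGroup V] [DistribMulAction Γ V] [Subsingleton V] :
    Finite (SelF S I V) ∧ Nat.card (SelF S I V) ≤ Nat.card (Inv (⊤ : Subgroup Γ) V) := by
  have : Subsingleton (SelF S I V) := ⟨fun x y => Subtype.ext (Subsingleton.elim _ _)⟩
  have : Subsingleton (Inv (⊤ : Subgroup Γ) V) := ⟨fun x y => Subtype.ext (Subsingleton.elim _ _)⟩
  refine ⟨inferInstance, ?_⟩
  rw [Nat.card_unique, Nat.card_unique]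

end Fermat.Agent.MAZ.SelCoh42
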