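/-
Programme MAZ (S15), Selmer core (helper42): **the weight `ω(V) = |V^{c = -1}|`** of an involution `c ∈ Γ`
(complex conjugation) on modules of odd order, its multiplicativity on short exact sequences, and the
resulting packaged Selmer bound `sel_card_le_of_odd`:

  class closed under stable sub/quotients, all of odd order; base bound
  `|Sel W| * |W^I| ≤ |W^Γ| * |W^{c=-1}|` for the simple objects `W`;
  `|G| ≤ |G^I|²` (A2) and `|G^{c=-1}|² ≤ |G|` (A3)   ⟹   `|Sel G| ≤ |G^Γ|`.

(`r` odd: the simple objects are `ℤ/r` with `c = 1` and `μ_r` with `c = -1`, so the base bounds read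
`|Sel(ℤ/r)| * r ≤ r * 1` and `|Sel(μ_r)| * r ≤ 1 * r`.)  Mathlib only.
-/
import Fermat.Agent.MAZ.SelCoh42.Simple

set_option autoImplicit false

namespace Fermat.Agent.MAZ.SelCoh42

universe u v

open Fermat.Agent.MAZ.SelIneq5

variable {Γ : Type v} [Group Γ]

section NegPart

variable (c : Γ) (V : Type u) [AddCommGroup V] [DistribMulAction Γ V]

/-- The `(-1)`-eigenspace of `c`. -/
def negPart : AddSubgroup V where
  carrier := {x | c • x = -x}
  zero_mem' := by
    show c • (0 : V) = -0
    rw [smul_zero, neg_zero]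
  add_mem' := fun {x y} hx hy => by
    show c • (x + y) = -(x + y)
    rw [smul_add, show c • x = -x from hx, show c • y = -y from hy, neg_add]
  neg_mem' := fun {x} hx => by
    show c • (-x) = - -x
    rw [smul_neg, show c • x = -x from hx]

variable {c V}

theorem mem_negPart {x : V} : x ∈ negPart c V ↔ c • x = -x := Iff.rfl

variable {V' V'' : Type u} [AddCommGroup V'] [DistribMulAction Γ V'] [AddCommGroup V'']
  [DistribMulAction Γ V'']

variable (c) in
/-- An equivariant map induces a map on `(-1)`-eigenspaces. -/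
def negMap (f : V →+[Γ] V') : negPart c V →+ negPart c V' where
  toFun x := ⟨f x.1, by
    show c • f x.1 = -f x.1
    rw [← map_smul, show c • x.1 = -x.1 from x.2, map_neg]⟩
  map_zero' := Subtype.ext (map_zero f)
  map_add' x y := Subtype.ext (map_add f x.1 y.1)

@[simp] theorem negMap_coe (f : V →+[Γ] V') (x : negPart c V) : (negMap c f x : V') = f x.1 := rfl

/-- Multiplicativity of `|V^{c=-1}|` on short exact sequences of modules of odd order, for an
involution `c`. -/
theorem card_negPart_eq_mul [Finite V] {i : V' →+[Γ] V} {π : V →+[Γ] V''} (h : ShortExact i π)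
    (hodd : Odd (Nat.card V)) (hc : ∀ x : V, c • c • x = x) :
    Nat.card (negPart c V) = Nat.card (negPart c V') * Nat.card (negPart c V'') := by
  -- halving on `V`
  obtain ⟨m, hm⟩ := hodd
  have hhalf : ∀ x : V, (2 * (m + 1)) • x = x := by
    intro x
    have h1 : (Nat.card V) • x = 0 := card_nsmul_eq_zero' 
    have h2 : 2 * (m + 1) = Nat.card V + 1 := by omega
    rw [h2, add_nsmul, h1, zero_add, one_nsmul]
  have h1 := Count.card_ker_mul_card_range (negMap c π)
  have hker : Nat.card (negMap c π).ker = Nat.card (negPart c V') := by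
    refine (Nat.card_congr (Equiv.ofBijective
      (fun y : negPart c V' => (⟨negMap c i y, Subtype.ext (h.comp_apply y.1)⟩ :
        (negMap c π).ker)) ⟨?_, ?_⟩)).symm
    · intro y y' hyy
      apply Subtype.ext
      apply h.inj
      exact congrArg (fun z : (negMap c π).ker => ((z : negPart c V) : V)) hyy
    · rintro ⟨⟨x, hx⟩, hx0⟩
      have hx0' : π x = 0 := congrArg Subtype.val hx0
      obtain ⟨y, rfl⟩ := (h.exact x).1 hx0'
      refine ⟨⟨y, ?_⟩, rfl⟩
      apply h.inj
      rw [map_smul, show c • i y = -i y from hx, map_neg]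
  have hrange : Nat.card (negMap c π).range = Nat.card (negPart c V'') := by
    have : (negMap c π).range = ⊤ := by
      rw [AddMonoidHom.range_eq_top]
      rintro ⟨x'', hx''⟩
      obtain ⟨x, rfl⟩ := h.surj x''
      refine ⟨⟨(m + 1) • (x - c • x), ?_⟩, ?_⟩
      · show c • ((m + 1) • (x - c • x)) = -((m + 1) • (x - c • x))
        rw [smul_comm, smul_sub, hc x, ← smul_neg, neg_sub]
      · apply Subtype.ext
        show π ((m + 1) • (x - c • x)) = π x
        rw [map_nsmul, map_sub, map_smul, show c • π x = -π x from hx'', sub_neg_eq_add,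
          ← two_nsmul, ← mul_nsmul', mul_comm, ← map_nsmul, hhalf x]
    rw [this]
    exact Nat.card_congr AddSubgroup.topEquiv.toEquiv
  rw [← h1, hker, hrange]

end NegPart

/-- **Packaged Selmer bound for modules of odd order** (see the header). -/
theorem sel_card_le_of_odd {𝒰 : LevelSets Γ} (S : SelmerSystem.{u} 𝒰) (I : Subgroup Γ) (c : Γ)
    (hclosed : ∀ (V : Type u) [AddCommGroup V] [DistribMulAction Γ V] (T : StableSub Γ V),
      S.mem V → S.mem T.W ∧ S.mem (V ⧸ T.W))
    (hodd : ∀ (V : Type u) [AddCommGroup V] [DistribMulAction Γ V] [Finite V],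
      S.mem V → Odd (Nat.card V) ∧ ∀ x : V, c • c • x = x)
    (hbase : ∀ (V : Type u) [AddCommGroup V] [DistribMulAction Γ V] [Finite V],
      IsSmooth 𝒰 V → S.mem V → IsSimpleOrZero Γ V → SelBound S I V (Nat.card (negPart c V)))
    (G : Type u) [AddCommGroup G] [DistribMulAction Γ G] [Finite G]
    (hsm : IsSmooth 𝒰 G) (hG : S.mem G)
    (hA2 : Nat.card G ≤ Nat.card (Inv I G) ^ 2)
    (hA3 : Nat.card (negPart c G) ^ 2 ≤ Nat.card G) :
    Finite (Sel I S G) ∧ Nat.card (Sel I S G) ≤ Nat.card (Inv (⊤ : Subgroup Γ) G) := by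
  have hb := sel_bound_of_simple S I (fun V _ _ => Nat.card (negPart c V)) hclosed
    (fun V _ _ _ T hV => by
      obtain ⟨ho, hc⟩ := hodd V hV
      exact (card_negPart_eq_mul (c := c) T.shortExact ho hc).ge)
    hbase G hsm hG
  exact ⟨hb.1, hb.card_le S I hA2 hA3⟩

end Fermat.Agent.MAZ.SelCoh42
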